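import Mathlib
import Fermat.Agent.H67.SS.CuspInterfaces2
import Fermat.Agent.H58.KL.ModelTr
import Fermat.Agent.H57.SS.ModelFinite
import Fermat.Agent.H89.KLGauss
import Fermat.Agent.H27.KLGB.Model
import Fermat.Agent.H2.KLBRModel
import Fermat.Agent.H66.SS.ModelIntegral

/-!
# P-SS row 1031 (SSH-8d, CUSP-CHART, helper42): `Fermat.Agent.H67.SS.ModelCuspChartStatement M q`

For ALL primes `q ∤ M` (also `q = 2, 3`): transcendence, finiteness, good basis and the
cusp-only branch hypothesis at level `M` in the chart `1 / j`, and integrality of `j(t^q)` over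
`A₀[j]` at level `M q`.

* `cuspChart_branchHyp_inf` : the cusp half of `Fermat.Agent.H2.klbr_branchHyp` (no hypothesis on
  the finite branch values).
* `cuspChart_branchHyp_inf_j` : the cusp half of `Fermat.Agent.H2.klbr_branchHyp_j` (no hypothesis
  on `2`, `3`).
* `modelCuspChart` : the statement of the row.
-/

set_option autoImplicit false
set_option synthInstance.maxHeartbeats 400000
set_option linter.style.haveILetI false
set_option linter.unusedSectionVars false

noncomputable section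

open AlgebraicCurve IntermediateField Polynomial ModularCurve

namespace Fermat.Agent.H42.SS

open Fermat.Agent.H23 Fermat.Agent.H22.KL Fermat.Agent.H2

section abs

variable {A : Type} [CommRing A] [IsDomain A] [IsDiscreteValuationRing A]
  {K0 : Type} [Field K0] [Algebra A K0] [IsFractionRing A K0]
  {E : Type} [Field E] [Algebra A E] [Algebra K0 E] [IsScalarTower A K0 E]

/-- **The cusp half of `klbr_branchHyp`**: the branch hypothesis at the point `x⁻¹ = 0` of the
chart at infinity needs only the exponent `einf` at the poles (a unit of `A`, with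
`μ_einf ⊆ A`) and a place with `ord x = -1`. -/
theorem cuspChart_branchHyp_inf (ϖ : A) (hϖ : Irreducible ϖ) (x : E)
    (hxtr : Transcendental K0 x) [Algebra.IsAlgebraic K0⟮x⟯ E] (Cbr : Set A) (e : K0 → ℕ)
    (einf : ℕ) (hB : BranchPlaceForm K0 E x (algebraMap A K0 '' Cbr) e einf)
    (heinf : 0 < einf ∧ IsUnit ((einf : ℕ) : A) ∧ ∃ ζ : A, IsPrimitiveRoot ζ einf)
    (hcusp : ∃ P : Place K0 E, P.ord x = -1) :
    BranchHypAt A E ϖ x⁻¹ X := by
  obtain ⟨P, hP⟩ := hcusp
  rw [← branchHypAtC_iff]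
  right
  refine ⟨0, einf, ⟨0, by simp⟩, heinf.1, heinf.2.1, heinf.2.2,
    klbr_tameNearC_inf ϖ hϖ.not_isUnit x _ e einf hB hxtr, ?_⟩
  intro d hd _
  refine ⟨P.toValuationSubring, isPlace_of_place P,
    klbr_not_ordDvd P _ (Or.inl ?_) d hd.two_le⟩
  rw [map_zero, sub_zero, P.ord_inv, hP]
  norm_num

end abs

section modular

variable (N : ℕ) [NeZero N]

variable {K0 E : Type} [Field K0] [Field E] [Algebra K0 E] [Algebra K0 (AlgebraicClosure ℚ)]
  {A : Type} [CommRing A] [IsDomain A] [IsDiscreteValuationRing A]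
  [Algebra A K0] [IsFractionRing A K0] [Algebra A E] [IsScalarTower A K0 E]
  [Algebra.IsAlgebraic K0 (AlgebraicClosure ℚ)]

/-- **The cusp half of `klbr_branchHyp_j`**: residue characteristic prime to `N` and
`μ_N ⊆ A` suffice (no hypothesis on `2`, `3`, `1728`). -/
theorem cuspChart_branchHyp_inf_j (ϖ : A) (hϖ : Irreducible ϖ)
    (ι : E →+* ↥(modularFunctionFieldBar N))
    (hι : ∀ a : K0, ι (algebraMap K0 E a) =
      algebraMap (AlgebraicClosure ℚ) ↥(modularFunctionFieldBar N)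
        (algebraMap K0 (AlgebraicClosure ℚ) a))
    (x : E) (hx : ι x = jBar N) [Algebra.IsAlgebraic K0⟮x⟯ E]
    (hN : IsUnit ((N : ℕ) : A)) (hζN : ∃ ζ : A, IsPrimitiveRoot ζ N) :
    BranchHypAt A E ϖ x⁻¹ X := by
  have hmap : algebraMap A K0 1728 = 1728 := map_ofNat _ _
  have himg : algebraMap A K0 '' ({0, 1728} : Set A) = ({0, 1728} : Set K0) := by
    rw [Set.image_pair, map_zero, hmap]
  have hB : BranchPlaceForm K0 E x (algebraMap A K0 '' ({0, 1728} : Set A))
      (branchExp K0 3 2) N := by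
    rw [himg]
    exact klbr_j N ι hι x hx
  exact cuspChart_branchHyp_inf ϖ hϖ x (klbr_j_transcendental N ι hι x hx) _
    (branchExp K0 3 2) N hB ⟨Nat.pos_of_ne_zero (NeZero.ne N), hN, hζN⟩
    (klbr_cusp_place_j N ι hι x hx)

end modular

section model

variable (N : ℕ) [NeZero N]

/-- **The cusp-only branch hypothesis of the concrete model**, chart `1 / j`, level `N`, at a
discrete valuation ring `A₀` of `K₁` whose residue characteristic `ℓ` is prime to `N`, with
`μ_N ⊆ K₁`. -/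
theorem cuspChart_model_branch (ℓ : ℕ) (hℓ : ℓ.Prime) (hN : ¬ ℓ ∣ N)
    (K₁ : Type) [Field K₁] [Algebra ℚ K₁] [FiniteDimensional ℚ K₁]
    (A₀ : Type) [CommRing A₀] [IsDomain A₀] [IsDiscreteValuationRing A₀]
    [Algebra A₀ K₁] [IsFractionRing A₀ K₁]
    [Algebra A₀ (ModelField K₁ N)] [IsScalarTower A₀ K₁ (ModelField K₁ N)]
    (hℓA : ¬ IsUnit ((ℓ : ℕ) : A₀)) (hζ : ∃ ζ : K₁, IsPrimitiveRoot ζ N)
    (ϖ : A₀) (hϖ : Irreducible ϖ)
    (x : ModelField K₁ N) (hx : (x : LaurentSeries K₁) = coeffEmb K₁ jq) :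
    BranchHypAt A₀ (ModelField K₁ N) ϖ x⁻¹ (X : A₀[X]) := by
  -- an embedding of `K₁` into `ℚ̄`
  haveI : Algebra.IsAlgebraic ℚ K₁ := Algebra.IsAlgebraic.of_finite ℚ K₁
  let φ : K₁ →ₐ[ℚ] AlgebraicClosure ℚ := IsAlgClosed.lift
  letI algK : Algebra K₁ (AlgebraicClosure ℚ) := φ.toRingHom.toAlgebra
  haveI tow : IsScalarTower ℚ K₁ (AlgebraicClosure ℚ) :=
    IsScalarTower.of_algebraMap_eq (fun a => (φ.commutes a).symm)
  haveI : Algebra.IsAlgebraic ℚ (AlgebraicClosure ℚ) := AlgebraicClosure.isAlgebraic ℚ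
  haveI : Algebra.IsAlgebraic K₁ (AlgebraicClosure ℚ) :=
    Algebra.IsAlgebraic.tower_top (K := ℚ) K₁
  -- the comparison map
  let ι : ModelField K₁ N →+* ↥(modularFunctionFieldBar N) :=
    Fermat.Agent.H93.KL.klBc φ.toRingHom (modularFunctionFieldFull N)
  have hι : ∀ a : K₁, ι (algebraMap K₁ (ModelField K₁ N) a) =
      algebraMap (AlgebraicClosure ℚ) ↥(modularFunctionFieldBar N)
        (algebraMap K₁ (AlgebraicClosure ℚ) a) := fun a =>
    Fermat.Agent.H73.KLDesc.klBc_algebraMap φ.toRingHom (modularFunctionFieldFull N) a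
  have hxj : ι x = jBar N := by
    apply Subtype.ext
    show coeffMap φ.toRingHom (x : LaurentSeries K₁) = coeffEmb (AlgebraicClosure ℚ) jq
    rw [hx, coeffEmb, coeffEmb, coeffMap_coeffMap]
    exact coeffMap_congr (Subsingleton.elim _ _) jq
  -- algebraicity over `K₁(x)`
  have hxe : x = Fermat.Agent.H54.jElt K₁ N := klbr_model_x_eq N K₁ x hx
  haveI hfin : FiniteDimensional K₁⟮x⟯ (ModelField K₁ N) := by
    rw [hxe]
    exact Fermat.Agent.H54.finiteDimensional_adjoin_jElt K₁ N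
  haveI : Algebra.IsAlgebraic K₁⟮x⟯ (ModelField K₁ N) := Algebra.IsAlgebraic.of_finite _ _
  -- units and roots of unity
  have hNu : IsUnit ((N : ℕ) : A₀) :=
    klbr_isUnit_natCast_of_coprime hℓA ((Nat.Prime.coprime_iff_not_dvd hℓ).mpr hN).symm
  have hζN : ∃ ζ : A₀, IsPrimitiveRoot ζ N :=
    klbr_exists_primitiveRoot_of_dvd (NeZero.ne N) hζ (dvd_refl N)
  exact cuspChart_branchHyp_inf_j N ϖ hϖ ι hι x hxj hNu hζN

end model

/-- **CUSP-CHART** (row 1031): `ModelCuspChartStatement M q` for every prime `q ∤ M`. -/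
theorem modelCuspChart (M q : ℕ) [NeZero M] [NeZero q] (hq : q.Prime) (hqM : ¬ q ∣ M) :
    Fermat.Agent.H67.SS.ModelCuspChartStatement M q := by
  intro K₁ _ _ _ A₀ _ _ _ _ _ _ _ _ _ hqA hζ ϖ hϖ x' hx'
  have hxa : ((heckeAlphaBar K₁ M q x' : ModelField K₁ (M * q)) : LaurentSeries K₁)
      = coeffEmb K₁ jq := by
    rw [coe_heckeAlphaBar]
    exact hx'
  have htr1 : Transcendental A₀ x' := Fermat.Agent.H58.modelTranscendental_jq M K₁ A₀ x' hx'
  have htr2 : Transcendental A₀ (heckeAlphaBar K₁ M q x') :=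
    Fermat.Agent.H58.modelTranscendental_jq (M * q) K₁ A₀ _ hxa
  have hinj : Function.Injective (algebraMap A₀ (ModelField K₁ M)) := by
    rw [IsScalarTower.algebraMap_eq A₀ K₁ (ModelField K₁ M)]
    exact (algebraMap K₁ (ModelField K₁ M)).injective.comp (IsFractionRing.injective A₀ K₁)
  refine ⟨fun h => htr1 (IsAlgebraic.inv_iff.mp h), fun h => htr2 (IsAlgebraic.inv_iff.mp h),
    ?_, ?_, ?_, ?_, ?_⟩
  · rw [Fermat.Agent.H89.klg_chartField_inv]
    exact Fermat.Agent.H57.SS.modelFinite M K₁ A₀ x' hx'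
  · rw [Fermat.Agent.H89.klg_chartField_inv]
    exact Fermat.Agent.H57.SS.modelFinite (M * q) K₁ A₀ _ hxa
  · exact Fermat.Agent.H89.goodBasisInvStatement A₀ (ModelField K₁ M) hinj ϖ hϖ x' htr1
      (Fermat.Agent.H27.KLGB.modelGoodBasis_j M q hq hqM K₁ A₀ hqA ϖ hϖ x' hx')
  · exact cuspChart_model_branch M q hq hqM K₁ A₀ hqA hζ ϖ hϖ x' hx'
  · refine (Fermat.Agent.H87.KL.mem_chartClosure_iff _ _).2
      (Fermat.Agent.H66.SS.smi_gen (heckeAlphaBar K₁ M q x') hxa (heckeBetaBar K₁ M q x') q ?_)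
    rw [coe_heckeBetaBar, hx', Fermat.Agent.H27.KLGB.coeffEmb_jq]

end Fermat.Agent.H42.SS
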