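/-
P-SS, SSH-4 GAUSS-2 (row 645), helper42: the two-sided family and its Gauss independence.

Level `M q`, `q` prime, `q ∤ M`; `θ` a primitive element of level `M`, `n = ψ(M)`.
`u = j_q - j^q`, `u' = j - j_q^q` (`j_q = j(t^q)`).  The family, indexed by
`Fin n ⊕ (Fin n × Fin q)`:

* at `∞`        : `u' θ^i`            and `u θ_q^i j_q^m`,
* after `W_q`   : `u θ_q^i`           and `u' θ^i j^m`.

In characteristic `q` we have `u = 0`, `u' ≠ 0`, `j_q = j^q`, so the pairs of reductions are
independent over `k[X]` (`X` acting as `j` at `∞` and as `j_q = j^q` after `W_q`) as soon as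
the powers `θ^i`, `i < n`, are independent over `k[j]`.
-/
import Mathlib
import Fermat.Agent.H42.KroneckerFormal
import Fermat.Agent.H66.KLM.StrongBasis

set_option autoImplicit false
set_option linter.unusedSectionVars false

noncomputable section

namespace Fermat.Agent.H42.SS

open Polynomial ModularCurve

/-! ### A lemma on polynomials -/

section Poly

variable {k : Type*} [Field k]

/-- `1, X, …, X^(q-1)` are independent over `k[X^q]`. -/
theorem expand_sum_eq_zero {q : ℕ} (hq : 0 < q) (p : Fin q → k[X])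
    (h : ∑ m, expand k q (p m) * X ^ (m : ℕ) = 0) : ∀ m, p m = 0 := by
  intro m₀
  ext a
  rw [Polynomial.coeff_zero]
  have h1 := congrArg (fun f : k[X] => f.coeff (q * a + m₀)) h
  simp only [Polynomial.finsetSum_coeff, Polynomial.coeff_zero] at h1
  rw [Finset.sum_eq_single m₀] at h1
  · rw [Polynomial.coeff_mul_X_pow', if_pos (Nat.le_add_left _ _), Nat.add_sub_cancel,
      Polynomial.coeff_expand hq, if_pos (dvd_mul_right q a), Nat.mul_div_cancel_left a hq] at h1
    exact h1
  · intro m _ hm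
    rw [Polynomial.coeff_mul_X_pow']
    split_ifs with hle
    · rw [Polynomial.coeff_expand hq]
      split_ifs with hdvd
      · exfalso
        apply hm
        have h2 : (m : ℕ) ≡ q * a + m₀ [MOD q] := (Nat.modEq_iff_dvd' hle).mpr hdvd
        have h3 : q * a + (m₀ : ℕ) ≡ m₀ [MOD q] := by
          have h4 : q * a + (m₀ : ℕ) ≡ 0 + m₀ [MOD q] :=
            Nat.ModEq.add_right _ ((Nat.modEq_zero_iff_dvd).mpr (dvd_mul_right q a))
          rwa [zero_add] at h4
        exact Fin.ext ((h2.trans h3).eq_of_lt_of_lt m.2 m₀.2)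
      · rfl
    · rfl
  · intro h0
    exact absurd (Finset.mem_univ m₀) h0

end Poly

/-! ### The family -/

section Family

variable (R : Type*) [CommRing R] (q : ℕ) [NeZero q]

/-- `u = j_q - j^q` -/
def uS : LaurentSeries R := qExpand R q (jqModC R) - jqModC R ^ q

/-- `u' = j - j_q^q` -/
def uS' : LaurentSeries R := jqModC R - qExpand R q (jqModC R) ^ q

/-- the family at `∞` -/
def famOne (θ : LaurentSeries R) (n : ℕ) : Fin n ⊕ (Fin n × Fin q) → LaurentSeries R
  | Sum.inl i => uS' R q * θ ^ (i : ℕ)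
  | Sum.inr (i, m) => uS R q * qExpand R q θ ^ (i : ℕ) * qExpand R q (jqModC R) ^ (m : ℕ)

/-- the family after `W_q` -/
def famTwo (θ : LaurentSeries R) (n : ℕ) : Fin n ⊕ (Fin n × Fin q) → LaurentSeries R
  | Sum.inl i => uS R q * qExpand R q θ ^ (i : ℕ)
  | Sum.inr (i, m) => uS' R q * θ ^ (i : ℕ) * jqModC R ^ (m : ℕ)

variable {R} {S : Type*} [CommRing S] (f : R →+* S)

theorem coeffMap_uS : coeffMap f (uS R q) = uS S q := by
  simp only [uS, map_sub, map_pow, coeffMap_qExpand, coeffMap_jqModC]

theorem coeffMap_uS' : coeffMap f (uS' R q) = uS' S q := by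
  simp only [uS', map_sub, map_pow, coeffMap_qExpand, coeffMap_jqModC]

theorem coeffMap_famOne (θ : LaurentSeries R) (n : ℕ) (a : Fin n ⊕ (Fin n × Fin q)) :
    coeffMap f (famOne R q θ n a) = famOne S q (coeffMap f θ) n a := by
  rcases a with i | ⟨i, m⟩
  · simp only [famOne, map_mul, map_pow, coeffMap_uS']
  · simp only [famOne, map_mul, map_pow, coeffMap_uS, coeffMap_qExpand, coeffMap_jqModC]

theorem coeffMap_famTwo (θ : LaurentSeries R) (n : ℕ) (a : Fin n ⊕ (Fin n × Fin q)) :
    coeffMap f (famTwo R q θ n a) = famTwo S q (coeffMap f θ) n a := by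
  rcases a with i | ⟨i, m⟩
  · simp only [famTwo, map_mul, map_pow, coeffMap_uS, coeffMap_qExpand]
  · simp only [famTwo, map_mul, map_pow, coeffMap_uS', coeffMap_jqModC]

end Family

/-! ### Characteristic `q` -/

section CharQ

variable (q : ℕ) [hq : Fact q.Prime] [NeZero q] (k : Type) [Field k] [CharP k q]

/-- Frobenius: `j(t^q) = j^q` in characteristic `q`. -/
theorem qExpand_jqModC_eq_pow : qExpand k q (jqModC k) = jqModC k ^ q := by
  set f : ZMod q →+* k := ZMod.castHom (dvd_refl q) k with hf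
  have h1 := laurent_pow_eq_qExpand q (jqModC (ZMod q))
  have h2 := congrArg (coeffMap f) h1
  rw [map_pow, coeffMap_qExpand, coeffMap_jqModC] at h2
  exact h2.symm

theorem uS_eq_zero : uS k q = 0 := by
  rw [uS, qExpand_jqModC_eq_pow, sub_self]

theorem uS'_ne_zero : uS' k q ≠ 0 := by
  rw [uS', qExpand_jqModC_eq_pow, ← pow_mul]
  intro h
  have htr := P2MW.S_ModularCurve_coeff_jqModC_neg_one.ModularCurve.CharLRows.transcendental_jqModC k
  have h1 : aeval (jqModC k) (X - X ^ (q * q) : k[X]) = 0 := by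
    rw [map_sub, map_pow, aeval_X]
    exact h
  have h2 := (transcendental_iff.mp htr) _ h1
  have h3 := congrArg (fun f : k[X] => f.coeff 1) h2
  have hqq : 1 ≠ q * q := by
    have := hq.out.two_le
    nlinarith
  simp only [coeff_sub, coeff_X_one, coeff_X_pow, coeff_zero, if_neg hqq, sub_zero] at h3
  exact one_ne_zero h3

/-- **Gauss independence of the two-sided family.** -/
theorem gi2 (θb : LaurentSeries k) (n : ℕ)
    (hGI : ∀ p : Fin n → k[X], ∑ i, aeval (jqModC k) (p i) * θb ^ (i : ℕ) = 0 → ∀ i, p i = 0)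
    (p : Fin n ⊕ (Fin n × Fin q) → k[X])
    (h1 : ∑ a, aeval (jqModC k) (p a) * famOne k q θb n a = 0)
    (h2 : ∑ a, aeval (qExpand k q (jqModC k)) (p a) * famTwo k q θb n a = 0) :
    ∀ a, p a = 0 := by
  have hq0 : 0 < q := hq.out.pos
  -- the first equation
  have e1 : ∑ i, aeval (jqModC k) (p (Sum.inl i)) * θb ^ (i : ℕ) = 0 := by
    rw [Fintype.sum_sum_type] at h1
    have hz : ∑ b : Fin n × Fin q, aeval (jqModC k) (p (Sum.inr b)) * famOne k q θb n (Sum.inr b)
        = 0 := by
      refine Finset.sum_eq_zero fun b _ => ?_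
      obtain ⟨i, m⟩ := b
      simp only [famOne, uS_eq_zero, zero_mul, mul_zero]
    rw [hz, add_zero] at h1
    have h3 : uS' k q * ∑ i, aeval (jqModC k) (p (Sum.inl i)) * θb ^ (i : ℕ) = 0 := by
      rw [← h1, Finset.mul_sum]
      refine Finset.sum_congr rfl fun i _ => ?_
      simp only [famOne]
      ring
    exact (mul_eq_zero.mp h3).resolve_left (uS'_ne_zero q k)
  have r1 := hGI _ e1
  -- the second equation
  have e2 : ∑ i, aeval (jqModC k) (∑ m, expand k q (p (Sum.inr (i, m))) * X ^ (m : ℕ)) *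
      θb ^ (i : ℕ) = 0 := by
    rw [Fintype.sum_sum_type] at h2
    have hz : ∑ i : Fin n, aeval (qExpand k q (jqModC k)) (p (Sum.inl i)) *
        famTwo k q θb n (Sum.inl i) = 0 := by
      refine Finset.sum_eq_zero fun i _ => ?_
      simp only [famTwo, uS_eq_zero, zero_mul, mul_zero]
    rw [hz, zero_add, Fintype.sum_prod_type] at h2
    have h3 : uS' k q * ∑ i, aeval (jqModC k)
        (∑ m, expand k q (p (Sum.inr (i, m))) * X ^ (m : ℕ)) * θb ^ (i : ℕ) = 0 := by
      rw [← h2, Finset.mul_sum]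
      refine Finset.sum_congr rfl fun i _ => ?_
      rw [map_sum, Finset.sum_mul, Finset.mul_sum]
      refine Finset.sum_congr rfl fun m _ => ?_
      simp only [famTwo, map_mul, map_pow, aeval_X, expand_aeval, qExpand_jqModC_eq_pow]
      ring
    exact (mul_eq_zero.mp h3).resolve_left (uS'_ne_zero q k)
  have r2 := hGI _ e2
  rintro (i | ⟨i, m⟩)
  · exact r1 i
  · exact expand_sum_eq_zero hq0 _ (r2 i) m

end CharQ

end Fermat.Agent.H42.SS
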