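import Fermat.Agent.H42.SS.KtAbsCore
import Fermat.Agent.H19.SS2.KcAbs

/-!
# P-SS row 969 (KT-A2 KTABS): `ktAbs : Fermat.Agent.H55.SS.KtAbsStatement`

Frobenius kills the gluing roots of unity.  `G = Ψ u / u ^ Q`.

* At a node `𝔪` (case `KtTwo`): `𝔪` is `Ψ`-stable, `H' = Ψ Hinv / Hinv ^ Q` is `≡ Ψ cᵢ / cᵢ ^ Q = 1`
  on both valuations and `G H' ^ n = Ψ ε / ε ^ Q` is a local unit (`kt_point_two`).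
* At a point on exactly one component `V` (case `KtOne V W`): with `𝔪' = Ψ⁻¹ 𝔪` and the datum
  `Hinv'` at `𝔪'`, `H₀ = Ψ Hinv' / Hinv ^ Q` is `≡ 1` on `V` and `G H₀ ^ n = Ψ ε' / ε ^ Q ∈ B_𝔪`;
  `H₀` is adjusted at `W` by helper19's `kc_adjust` (`kt_point_one`).
* `kt_localPrinc` : `LocalPrinc` for `G` in a chart fixed by `Ψ`.
* `ktAbs` : the assembly by `Fermat.Agent.H45.klssAbs_general`.
-/

set_option autoImplicit false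
set_option linter.style.haveILetI false
set_option linter.unusedSectionVars false

noncomputable section

namespace Fermat.Agent.H42.SS

open Fermat.Agent.H22.KL Fermat.Agent.H45 Fermat.Agent.H11.SS2 Fermat.Agent.H19.SS2
  Fermat.Agent.H55.SS

section Point

variable {A : Type} [CommRing A] {E₀ : Type} [Field E₀] [Algebra A E₀]
  (Ψ : E₀ ≃+* E₀)
  (hA : ∀ a : A, ∃ b : A, Ψ (algebraMap A E₀ a) = algebraMap A E₀ b) {y : E₀} (hy : Ψ y = y)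

/-- The algebraic identity behind the transport. -/
theorem kt_identity (n Q : ℕ) (u H H' : E₀) (hu : u ≠ 0) (hH : H ≠ 0) :
    Ψ u / u ^ Q * (Ψ H' / H ^ Q) ^ n
      = Ψ (u * H' ^ n) * ((u * H ^ n)⁻¹) ^ Q := by
  rw [map_mul, map_pow, div_pow, inv_pow, mul_pow, ← pow_mul, ← pow_mul, mul_comm n Q]
  field_simp

/-- **Node**: `KtTwo` at a maximal ideal gives the point datum for `G = Ψ u / u ^ Q`. -/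
theorem kt_point_two (hsurj : Function.Surjective (ktRingHomB Ψ hA hy))
    {n : ℕ} (hn : 0 < n) (Q : ℕ) (V₁ V₂ : ValuationSubring E₀)
    (hΨV₁ : ∀ z : E₀, z ∈ V₁ ↔ Ψ z ∈ V₁) (hΨV₂ : ∀ z : E₀, z ∈ V₂ ↔ Ψ z ∈ V₂)
    (hΨμ : ∀ c : A, c ^ n = 1 → Ψ (algebraMap A E₀ c) = algebraMap A E₀ (c ^ Q))
    (𝔪 : Ideal (chartClosure A E₀ y)) (h𝔪 : 𝔪.IsMaximal) (u : E₀)
    (h : KtTwo A E₀ n y Ψ V₁ V₂ u 𝔪) :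
    ∃ H : E₀, KcU1 V₁ H ∧ KcU1 V₂ H ∧ KcInLoc A E₀ y 𝔪 (Ψ u / u ^ Q * H ^ n) := by
  obtain ⟨hst, Hinv, c₁, c₂, hc₁, hc₂, hH₁, hH₂, hε0, hεin, hεinv⟩ := h
  haveI : 𝔪.IsPrime := h𝔪.isPrime
  have hcomap := kt_comap_eq_of_stable Ψ hA hy hsurj 𝔪 h𝔪 hst
  have hι : ∀ c : A, c ^ n = 1 → (algebraMap A E₀ c) ^ n = 1 := fun c hc => by
    rw [← map_pow, hc, map_one]
  have hΨc : ∀ c : A, c ^ n = 1 →
      Ψ (algebraMap A E₀ c) = (algebraMap A E₀ c) ^ Q := fun c hc => by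
    rw [hΨμ c hc, map_pow]
  have hu0 : u ≠ 0 := left_ne_zero_of_mul hε0
  have hH0 : Hinv ≠ 0 := fun h0 => by
    rw [h0, zero_pow hn.ne', mul_zero] at hε0
    exact hε0 rfl
  refine ⟨Ψ Hinv / Hinv ^ Q, kt_quot_u1 Ψ hΨV₁ hn Q (hι _ hc₁) (hΨc _ hc₁) hH₁.2,
    kt_quot_u1 Ψ hΨV₂ hn Q (hι _ hc₂) (hΨc _ hc₂) hH₂.2, ?_⟩
  rw [kt_identity Ψ n Q u Hinv Hinv hu0 hH0]
  have h1 : KcInLoc A E₀ y 𝔪 (Ψ (u * Hinv ^ n)) := by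
    have hεin' : InLoc A E₀ y (𝔪.comap (ktRingHomB Ψ hA hy)) (u * Hinv ^ n) := by
      rw [hcomap]
      exact hεin
    exact kt_inLoc_map Ψ hA hy 𝔪 hεin'
  have h2 : KcInLoc A E₀ y 𝔪 ((u * Hinv ^ n)⁻¹) := hεinv
  exact h1.mul (h2.pow Q)

/-- **Point on one component** `V` (`W` away): the data at `𝔪` and at `Ψ⁻¹ 𝔪` give the point datum
for `G = Ψ u / u ^ Q` at `𝔪`. -/
theorem kt_point_one [IsDomain A] (ϖ : A) (hϖ0 : algebraMap A E₀ ϖ ≠ 0)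
    (hyT : Transcendental A y)
    (hfd : ∃ d : ℕ, Nonempty (Module.Basis (Fin d) (chartField A E₀ y) E₀))
    {n : ℕ} (hn : 0 < n) (Q : ℕ) (V W : ValuationSubring E₀)
    (hΨV : ∀ z : E₀, z ∈ V ↔ Ψ z ∈ V)
    (hBV : ∀ z ∈ chartClosure A E₀ y, z ∈ V) (hBW : ∀ z ∈ chartClosure A E₀ y, z ∈ W)
    (hϖV : algebraMap A E₀ ϖ ∈ V.nonunits)
    (harch : ∀ s ∈ W.nonunits, ∀ c : E₀, ∃ N₀ : ℕ, ∀ N : ℕ, N₀ ≤ N → s ^ N * c ∈ W.nonunits)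
    (𝔪 : Ideal (chartClosure A E₀ y)) (h𝔪 : 𝔪.IsMaximal)
    (hϖ𝔪 : algebraMap A (chartClosure A E₀ y) ϖ ∈ 𝔪) (u : E₀)
    (h : KtOne A E₀ n y V W u 𝔪)
    (h' : KtOne A E₀ n y V W u (𝔪.comap (ktRingHomB Ψ hA hy))) :
    ∃ H : E₀, KcU1 V H ∧ KcU1 W H ∧ KcInLoc A E₀ y 𝔪 (Ψ u / u ^ Q * H ^ n) := by
  obtain ⟨hthr, haway, Hinv, hH, hε0, -, hεinv⟩ := h
  obtain ⟨-, -, Hinv', hH', hε0', hεin', -⟩ := h'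
  haveI : 𝔪.IsPrime := h𝔪.isPrime
  have hu0 : u ≠ 0 := left_ne_zero_of_mul hε0
  have hH0 : Hinv ≠ 0 := fun h0 => by
    rw [h0, zero_pow hn.ne', mul_zero] at hε0
    exact hε0 rfl
  have hH0' : Hinv' ≠ 0 := fun h0 => by
    rw [h0, zero_pow hn.ne', mul_zero] at hε0'
    exact hε0' rfl
  have hHu : KcU1 V Hinv := hH.2
  have hHu' : KcU1 V Hinv' := hH'.2
  have hH₀V : KcU1 V (Ψ Hinv' / Hinv ^ Q) := (kt_u1_map Ψ hΨV hHu').div (hHu.pow Q)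
  have hH₀0 : Ψ Hinv' / Hinv ^ Q ≠ 0 := hH₀V.ne_zero
  obtain ⟨e, heloc, heV, heW, -⟩ := kc_adjust ϖ hϖ0 hyT hfd 𝔪 hϖ𝔪 V W W hBV hBW hBW hϖV
    harch harch hthr haway haway (Ψ Hinv' / Hinv ^ Q) hH₀0
  refine ⟨e * (Ψ Hinv' / Hinv ^ Q), heV.mul hH₀V, heW, ?_⟩
  have h1 : KcInLoc A E₀ y 𝔪 (Ψ (u * Hinv' ^ n)) := kt_inLoc_map Ψ hA hy 𝔪 hεin'
  have h2 : KcInLoc A E₀ y 𝔪 ((u * Hinv ^ n)⁻¹) := hεinv
  refine ((heloc.pow n).mul (h1.mul (h2.pow Q))).congr ?_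
  rw [← kt_identity Ψ n Q u Hinv Hinv' hu0 hH0, mul_pow]
  ring

end Point

section Chart

variable {A : Type} [CommRing A] [IsDomain A] {E₀ : Type} [Field E₀] [Algebra A E₀]

/-- **Local principalisation** of `G = Ψ u / u ^ Q` in a chart `y` fixed by `Ψ`. -/
theorem kt_localPrinc (q : ℕ) (hq0 : (q : E₀) ≠ 0)
    (n : ℕ) (hn : 0 < n) (V₁ V₂ : ValuationSubring E₀)
    (hV₁ : KtVert q V₁) (hV₂ : KtVert q V₂)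
    (Ψ : E₀ ≃+* E₀) (Q : ℕ)
    (hA : ∀ a : A, ∃ b : A, Ψ (algebraMap A E₀ a) = algebraMap A E₀ b)
    (hA' : ∀ a : A, ∃ b : A, Ψ.symm (algebraMap A E₀ a) = algebraMap A E₀ b)
    (hΨV₁ : ∀ z : E₀, z ∈ V₁ ↔ Ψ z ∈ V₁) (hΨV₂ : ∀ z : E₀, z ∈ V₂ ↔ Ψ z ∈ V₂)
    (hΨμ : ∀ c : A, c ^ n = 1 → Ψ (algebraMap A E₀ c) = algebraMap A E₀ (c ^ Q))
    (u : E₀) (y : E₀) (hy : Ψ y = y) (hyT : Transcendental A y)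
    (hfd : ∃ d : ℕ, Nonempty (Module.Basis (Fin d) (chartField A E₀ y) E₀))
    (hCy : ∀ z : E₀, z ∈ gaussClosure A E₀ ((q : ℕ) : A) y ↔ z ∈ V₁ ∧ z ∈ V₂)
    (hBCy : ∀ z ∈ chartClosure A E₀ y, z ∈ gaussClosure A E₀ ((q : ℕ) : A) y)
    (hloc : ∀ 𝔪 : Ideal (chartClosure A E₀ y), 𝔪.IsMaximal →
      algebraMap A (chartClosure A E₀ y) ((q : ℕ) : A) ∈ 𝔪 →
      KtLoc A E₀ n y Ψ V₁ V₂ u 𝔪) :
    LocalPrinc A E₀ ((q : ℕ) : A) y n (Ψ u / u ^ Q) := by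
  intro 𝔪 h𝔪 hq𝔪
  have hιq : algebraMap A E₀ ((q : ℕ) : A) = (q : E₀) := map_natCast _ q
  have hϖ0 : algebraMap A E₀ ((q : ℕ) : A) ≠ 0 := by rw [hιq]; exact hq0
  have hsurj := ktRingHomB_surjective Ψ hA hA' hy
  have hB₁ : ∀ z ∈ chartClosure A E₀ y, z ∈ V₁ := fun z hz => ((hCy z).1 (hBCy z hz)).1
  have hB₂ : ∀ z ∈ chartClosure A E₀ y, z ∈ V₂ := fun z hz => ((hCy z).1 (hBCy z hz)).2
  have hqV₁ : algebraMap A E₀ ((q : ℕ) : A) ∈ V₁.nonunits := by rw [hιq]; exact hV₁.q_mem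
  have hqV₂ : algebraMap A E₀ ((q : ℕ) : A) ∈ V₂.nonunits := by rw [hιq]; exact hV₂.q_mem
  haveI : 𝔪.IsMaximal := h𝔪
  have h𝔪' : (𝔪.comap (ktRingHomB Ψ hA hy)).IsMaximal :=
    Ideal.comap_isMaximal_of_surjective _ hsurj
  have hq𝔪' := kt_natCast_mem_comap Ψ hA hy q 𝔪 hq𝔪
  -- the point datum
  have key : ∃ H : E₀, KcU1 V₁ H ∧ KcU1 V₂ H ∧ KcInLoc A E₀ y 𝔪 (Ψ u / u ^ Q * H ^ n) := by
    -- a `KtTwo` datum at the pulled-back point is a `KtTwo` datum at `𝔪`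
    have htwo' : KtTwo A E₀ n y Ψ V₁ V₂ u (𝔪.comap (ktRingHomB Ψ hA hy)) →
        KtTwo A E₀ n y Ψ V₁ V₂ u 𝔪 := by
      intro h2
      have heq := kt_comap_eq_self_of_stable_comap Ψ hA hy hsurj 𝔪 h𝔪 h2.1
      rw [heq] at h2
      exact h2
    rcases hloc 𝔪 h𝔪 hq𝔪 with h2 | h1 | h1
    · exact kt_point_two Ψ hA hy hsurj hn Q V₁ V₂ hΨV₁ hΨV₂ hΨμ 𝔪 h𝔪 u h2
    · rcases hloc _ h𝔪' hq𝔪' with h2' | h1' | h1'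
      · exact kt_point_two Ψ hA hy hsurj hn Q V₁ V₂ hΨV₁ hΨV₂ hΨμ 𝔪 h𝔪 u (htwo' h2')
      · exact kt_point_one Ψ hA hy _ hϖ0 hyT hfd hn Q V₁ V₂ hΨV₁ hB₁ hB₂ hqV₁ hV₂.arch
          𝔪 h𝔪 hq𝔪 u h1 h1'
      · exfalso
        obtain ⟨s, hs, hs𝔪⟩ := h1'.2.1
        exact hs𝔪 (kt_through_comap Ψ hA hy hΨV₁ 𝔪 h1.1 s hs)
    · rcases hloc _ h𝔪' hq𝔪' with h2' | h1' | h1'
      · exact kt_point_two Ψ hA hy hsurj hn Q V₁ V₂ hΨV₁ hΨV₂ hΨμ 𝔪 h𝔪 u (htwo' h2')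
      · exfalso
        obtain ⟨s, hs, hs𝔪⟩ := h1'.2.1
        exact hs𝔪 (kt_through_comap Ψ hA hy hΨV₂ 𝔪 h1.1 s hs)
      · obtain ⟨H, hV, hW, hl⟩ := kt_point_one Ψ hA hy _ hϖ0 hyT hfd hn Q V₂ V₁ hΨV₂ hB₂ hB₁
          hqV₂ hV₁.arch 𝔪 h𝔪 hq𝔪 u h1 h1'
        exact ⟨H, hW, hV, hl⟩
  obtain ⟨H, h1, h2, hl⟩ := key
  refine ⟨H, (hCy _).2 ⟨h1.mem, h2.mem⟩, ⟨(H - 1) / (q : E₀),
    (hCy _).2 ⟨hV₁.unif _ h1, hV₂.unif _ h2⟩, ?_⟩, hl⟩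
  rw [hιq, mul_div_cancel₀ _ hq0]

end Chart

section Main

/-- **KT-A2 (KTABS)**, row 969: Frobenius kills the gluing roots of unity. -/
theorem ktAbs : KtAbsStatement := by
  intro A _ _ _ E₀ Ω _ _ _ _ _ _ _ hinj q hq hϖ x hx hfd hΩ n hn hnu ζ hζ V₁ V₂ _hne hC
    hV₁ hV₂ _happ Ψ Q _hQ hA hA' hΨx hΨV₁ hΨV₂ hΨμ u hu₁ hu₂ hlocf hloci hroot
  have hxinv : Transcendental A x⁻¹ := fun h => hx (IsAlgebraic.inv_iff.mp h)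
  have hfdinv : ∃ d : ℕ, Nonempty (Module.Basis (Fin d) (chartField A E₀ x⁻¹) E₀) := by
    rw [Fermat.Agent.H89.klg_chartField_inv]
    exact hfd
  obtain ⟨hBC, -, -⟩ := Fermat.Agent.H89.gaussClosureStatement A E₀ hinj _ hϖ x hx
  obtain ⟨hBCi, -, hCinv⟩ := Fermat.Agent.H89.gaussClosureStatement A E₀ hinj _ hϖ x⁻¹ hxinv
  rw [inv_inv] at hCinv
  have hCi : ∀ z : E₀, z ∈ gaussClosure A E₀ ((q : ℕ) : A) x⁻¹ ↔ z ∈ V₁ ∧ z ∈ V₂ := by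
    intro z
    rw [← hCinv]
    exact hC z
  have hιq : algebraMap A E₀ ((q : ℕ) : A) = (q : E₀) := map_natCast _ q
  have hq0 : (q : E₀) ≠ 0 := Nat.cast_ne_zero.2 hq.ne_zero
  have hΨxinv : Ψ x⁻¹ = x⁻¹ := by rw [map_inv₀, hΨx]
  -- `G ≡ 1` on both valuations
  have hU₁ : KcU1 V₁ u := hu₁
  have hU₂ : KcU1 V₂ u := hu₂
  have hG₁ : KcU1 V₁ (Ψ u / u ^ Q) := (kt_u1_map Ψ hΨV₁ hU₁).div (hU₁.pow Q)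
  have hG₂ : KcU1 V₂ (Ψ u / u ^ Q) := (kt_u1_map Ψ hΨV₂ hU₂).div (hU₂.pow Q)
  have hGC : Ψ u / u ^ Q ∈ gaussClosure A E₀ ((q : ℕ) : A) x := (hC _).2 ⟨hG₁.mem, hG₂.mem⟩
  have hG1 : PiDvdSet A E₀ ((q : ℕ) : A) (gaussClosure A E₀ ((q : ℕ) : A) x)
      (Ψ u / u ^ Q - 1) := by
    refine ⟨(Ψ u / u ^ Q - 1) / (q : E₀), (hC _).2 ⟨hV₁.unif _ hG₁, hV₂.unif _ hG₂⟩, ?_⟩
    rw [hιq, mul_div_cancel₀ _ hq0]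
  have hLf : LocalPrinc A E₀ ((q : ℕ) : A) x n (Ψ u / u ^ Q) :=
    kt_localPrinc q hq0 n hn V₁ V₂ hV₁ hV₂ Ψ Q hA hA' hΨV₁ hΨV₂ hΨμ u x hΨx hx hfd hC hBC hlocf
  have hLi : LocalPrinc A E₀ ((q : ℕ) : A) x⁻¹ n (Ψ u / u ^ Q) :=
    kt_localPrinc q hq0 n hn V₁ V₂ hV₁ hV₂ Ψ Q hA hA' hΨV₁ hΨV₂ hΨμ u x⁻¹ hΨxinv hxinv hfdinv
      hCi hBCi hloci
  obtain ⟨w₀, hw₀, -⟩ := klssAbs_general A E₀ Ω hinj _ hϖ x hx hfd hΩ n hn hnu ζ hζ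
    (Ψ u / u ^ Q) hGC hG1 hLf hLi hroot
  exact ⟨w₀, hw₀⟩

end Main

end Fermat.Agent.H42.SS

end
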