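import Fermat.Agent.H55.SS.KTContract
import Fermat.Agent.H19.SS2.KcChart

/-!
# P-SS row 969 (KT-A2 KTABS), part A: transport by the automorphism `Ψ`

`Ψ : E₀ ≃+* E₀` preserves `A`, fixes the chart coordinate `y` and preserves the valuation rings.

* `kt_mem_nonunits_iff`, `kt_map_nonunits`, `KcU1.kt_map`, `kt_quot_u1` : `Ψ` on principal units;
* `kt_map_chartRing`, `kt_map_chartClosure`, `ktRingHomB` : `Ψ` restricts to a surjective ring
  endomorphism of `B(y)`;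
* `kt_inLoc_map`, `kt_through_comap`, `kt_comap_eq_of_stable` : transport of the local data from
  `Ψ⁻¹ 𝔪` to `𝔪`.
-/

set_option autoImplicit false
set_option linter.style.haveILetI false
set_option linter.unusedSectionVars false

noncomputable section

namespace Fermat.Agent.H42.SS

open Fermat.Agent.H22.KL Fermat.Agent.H11.SS2 Fermat.Agent.H19.SS2 Fermat.Agent.H55.SS

section Val

variable {K : Type} [Field K]

/-- The non-units of a valuation ring: `z = 0` or `z⁻¹ ∉ V`. -/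
theorem kt_mem_nonunits_iff (V : ValuationSubring K) (z : K) :
    z ∈ V.nonunits ↔ z = 0 ∨ z⁻¹ ∉ V := by
  rw [V.mem_nonunits_iff]
  by_cases hz : z = 0
  · simp [hz]
  · have hv0 : 0 < V.valuation z := zero_lt_iff.2 ((Valuation.ne_zero_iff _).2 hz)
    constructor
    · intro h
      right
      intro hinv
      have h1 : V.valuation z⁻¹ ≤ 1 := (V.valuation_le_one_iff _).2 hinv
      rw [map_inv₀, inv_le_one₀ hv0] at h1
      exact absurd h (not_lt.2 h1)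
    · rintro (h | h)
      · exact absurd h hz
      · by_contra hcon
        apply h
        rw [← V.valuation_le_one_iff, map_inv₀, inv_le_one₀ hv0]
        exact not_lt.1 hcon

theorem kt_map_nonunits {V : ValuationSubring K} (Ψ : K ≃+* K)
    (hΨ : ∀ z : K, z ∈ V ↔ Ψ z ∈ V) {z : K} (hz : z ∈ V.nonunits) : Ψ z ∈ V.nonunits := by
  rw [kt_mem_nonunits_iff] at hz ⊢
  rcases hz with h | h
  · left
    rw [h, map_zero]
  · right
    rw [← map_inv₀]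
    exact fun h' => h ((hΨ _).2 h')

theorem kt_symm_mem {V : ValuationSubring K} (Ψ : K ≃+* K)
    (hΨ : ∀ z : K, z ∈ V ↔ Ψ z ∈ V) (z : K) : z ∈ V ↔ Ψ.symm z ∈ V := by
  rw [hΨ (Ψ.symm z), Ψ.apply_symm_apply]

theorem kt_u1_map {V : ValuationSubring K} (Ψ : K ≃+* K)
    (hΨ : ∀ z : K, z ∈ V ↔ Ψ z ∈ V) {z : K} (hz : KcU1 V z) : KcU1 V (Ψ z) := by
  have h := kt_map_nonunits Ψ hΨ hz
  rw [map_sub, map_one] at h
  exact h

/-- `Hinv ≡ c` with `c` a root of unity on which `Ψ` is the `Q`-th power: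
`Ψ Hinv / Hinv ^ Q ≡ 1`. -/
theorem kt_quot_u1 {V : ValuationSubring K} (Ψ : K ≃+* K)
    (hΨ : ∀ z : K, z ∈ V ↔ Ψ z ∈ V) {n : ℕ} (hn : 0 < n) (Q : ℕ) {Hinv c : K}
    (hc : c ^ n = 1) (hΨc : Ψ c = c ^ Q) (hH : Hinv - c ∈ V.nonunits) :
    KcU1 V (Ψ Hinv / Hinv ^ Q) := by
  have hvc : V.valuation c = 1 := kc_val_of_pow_eq_one V hn hc
  have hc0 : c ≠ 0 := fun h => by rw [h, zero_pow hn.ne'] at hc; exact zero_ne_one hc
  have h1 : KcU1 V (Hinv / c) := kcU1_div_of_sub hvc hH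
  have h2 : KcU1 V (Ψ (Hinv / c)) := kt_u1_map Ψ hΨ h1
  have e : Ψ Hinv / Hinv ^ Q = Ψ (Hinv / c) / (Hinv / c) ^ Q := by
    rw [map_div₀, hΨc, div_pow, div_div_div_cancel_right₀ (pow_ne_zero Q hc0)]
  rw [e]
  exact h2.div (h1.pow Q)

end Val

section Transport

variable {A : Type} [CommRing A] {E₀ : Type} [Field E₀] [Algebra A E₀]

theorem kt_map_chartRing (Ψ : E₀ ≃+* E₀)
    (hA : ∀ a : A, ∃ b : A, Ψ (algebraMap A E₀ a) = algebraMap A E₀ b) {y : E₀} (hy : Ψ y = y)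
    {z : E₀} (hz : z ∈ chartRing A E₀ y) : Ψ z ∈ chartRing A E₀ y := by
  unfold chartRing at hz ⊢
  induction hz using Algebra.adjoin_induction with
  | mem w hw =>
    rw [Set.mem_singleton_iff] at hw
    rw [hw, hy]
    exact Algebra.subset_adjoin (Set.mem_singleton y)
  | algebraMap a =>
    obtain ⟨b, hb⟩ := hA a
    rw [hb]
    exact Subalgebra.algebraMap_mem _ b
  | add w w' _ _ h h' =>
    rw [map_add]
    exact Subalgebra.add_mem _ h h'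
  | mul w w' _ _ h h' =>
    rw [map_mul]
    exact Subalgebra.mul_mem _ h h'

/-- `Ψ` restricted to `A[y]`. -/
def ktRingHomR (Ψ : E₀ ≃+* E₀)
    (hA : ∀ a : A, ∃ b : A, Ψ (algebraMap A E₀ a) = algebraMap A E₀ b) {y : E₀} (hy : Ψ y = y) :
    ↥(chartRing A E₀ y) →+* ↥(chartRing A E₀ y) :=
  ((Ψ : E₀ →+* E₀).comp (algebraMap ↥(chartRing A E₀ y) E₀)).codRestrict (chartRing A E₀ y)
    (fun c => kt_map_chartRing Ψ hA hy c.2)

theorem kt_map_chartClosure (Ψ : E₀ ≃+* E₀)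
    (hA : ∀ a : A, ∃ b : A, Ψ (algebraMap A E₀ a) = algebraMap A E₀ b) {y : E₀} (hy : Ψ y = y)
    {z : E₀} (hz : z ∈ chartClosure A E₀ y) : Ψ z ∈ chartClosure A E₀ y := by
  have hz' : IsIntegral ↥(chartRing A E₀ y) z := hz
  have h : IsIntegral ↥(chartRing A E₀ y) ((Ψ : E₀ →+* E₀) z) :=
    IsIntegral.map_of_comp_eq (ktRingHomR Ψ hA hy) (Ψ : E₀ →+* E₀) (by ext c; rfl) hz'
  exact h

/-- `Ψ` restricted to `B(y)`. -/
def ktRingHomB (Ψ : E₀ ≃+* E₀)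
    (hA : ∀ a : A, ∃ b : A, Ψ (algebraMap A E₀ a) = algebraMap A E₀ b) {y : E₀} (hy : Ψ y = y) :
    ↥(chartClosure A E₀ y) →+* ↥(chartClosure A E₀ y) :=
  ((Ψ : E₀ →+* E₀).comp (algebraMap ↥(chartClosure A E₀ y) E₀)).codRestrict
    (chartClosure A E₀ y) (fun c => kt_map_chartClosure Ψ hA hy c.2)

theorem ktRingHomB_coe (Ψ : E₀ ≃+* E₀)
    (hA : ∀ a : A, ∃ b : A, Ψ (algebraMap A E₀ a) = algebraMap A E₀ b) {y : E₀} (hy : Ψ y = y)
    (c : ↥(chartClosure A E₀ y)) :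
    ((ktRingHomB Ψ hA hy c : ↥(chartClosure A E₀ y)) : E₀) = Ψ (c : E₀) := rfl

theorem ktRingHomB_surjective (Ψ : E₀ ≃+* E₀)
    (hA : ∀ a : A, ∃ b : A, Ψ (algebraMap A E₀ a) = algebraMap A E₀ b)
    (hA' : ∀ a : A, ∃ b : A, Ψ.symm (algebraMap A E₀ a) = algebraMap A E₀ b)
    {y : E₀} (hy : Ψ y = y) : Function.Surjective (ktRingHomB Ψ hA hy) := by
  intro c
  have hy' : Ψ.symm y = y := by
    conv_lhs => rw [← hy]
    exact Ψ.symm_apply_apply y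
  refine ⟨⟨Ψ.symm (c : E₀), kt_map_chartClosure Ψ.symm hA' hy' c.2⟩, Subtype.ext ?_⟩
  show Ψ (Ψ.symm (c : E₀)) = (c : E₀)
  exact Ψ.apply_symm_apply _

variable (Ψ : E₀ ≃+* E₀)
  (hA : ∀ a : A, ∃ b : A, Ψ (algebraMap A E₀ a) = algebraMap A E₀ b) {y : E₀} (hy : Ψ y = y)

theorem kt_natCast_mem_comap (q : ℕ) (𝔪 : Ideal (chartClosure A E₀ y))
    (hq : algebraMap A (chartClosure A E₀ y) ((q : ℕ) : A) ∈ 𝔪) :
    algebraMap A (chartClosure A E₀ y) ((q : ℕ) : A) ∈ 𝔪.comap (ktRingHomB Ψ hA hy) := by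
  rw [Ideal.mem_comap]
  have e : ktRingHomB Ψ hA hy (algebraMap A (chartClosure A E₀ y) ((q : ℕ) : A))
      = algebraMap A (chartClosure A E₀ y) ((q : ℕ) : A) := by
    rw [map_natCast, map_natCast]
  rw [e]
  exact hq

theorem kt_inLoc_map (𝔪 : Ideal (chartClosure A E₀ y)) {z : E₀}
    (h : InLoc A E₀ y (𝔪.comap (ktRingHomB Ψ hA hy)) z) : InLoc A E₀ y 𝔪 (Ψ z) := by
  obtain ⟨b, hb, hbz⟩ := h
  refine ⟨ktRingHomB Ψ hA hy b, fun hmem => hb (Ideal.mem_comap.2 hmem), ?_⟩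
  show Ψ (b : E₀) * Ψ z ∈ chartClosure A E₀ y
  rw [← map_mul]
  exact kt_map_chartClosure Ψ hA hy hbz

theorem kt_through_comap {V : ValuationSubring E₀} (hΨV : ∀ z : E₀, z ∈ V ↔ Ψ z ∈ V)
    (𝔪 : Ideal (chartClosure A E₀ y)) (h : Through A E₀ y 𝔪 V) :
    Through A E₀ y (𝔪.comap (ktRingHomB Ψ hA hy)) V := by
  intro s hs
  rw [Ideal.mem_comap]
  exact h _ (kt_map_nonunits Ψ hΨV hs)

theorem kt_comap_eq_of_stable (hsurj : Function.Surjective (ktRingHomB Ψ hA hy))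
    (𝔪 : Ideal (chartClosure A E₀ y)) (h𝔪 : 𝔪.IsMaximal)
    (hst : ∀ s : chartClosure A E₀ y, s ∈ 𝔪 → ∀ h : Ψ (s : E₀) ∈ chartClosure A E₀ y,
      (⟨Ψ (s : E₀), h⟩ : chartClosure A E₀ y) ∈ 𝔪) :
    𝔪.comap (ktRingHomB Ψ hA hy) = 𝔪 := by
  have hle : 𝔪 ≤ 𝔪.comap (ktRingHomB Ψ hA hy) := fun s hs =>
    Ideal.mem_comap.2 (hst s hs _)
  haveI : 𝔪.IsMaximal := h𝔪
  have hmax : (𝔪.comap (ktRingHomB Ψ hA hy)).IsMaximal :=
    Ideal.comap_isMaximal_of_surjective _ hsurj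
  exact (h𝔪.eq_of_le hmax.ne_top hle).symm

/-- If the pulled-back point `Ψ⁻¹ 𝔪` is `Ψ`-stable, it is `𝔪`. -/
theorem kt_comap_eq_self_of_stable_comap (hsurj : Function.Surjective (ktRingHomB Ψ hA hy))
    (𝔪 : Ideal (chartClosure A E₀ y)) (h𝔪 : 𝔪.IsMaximal)
    (hst : ∀ s : chartClosure A E₀ y, s ∈ 𝔪.comap (ktRingHomB Ψ hA hy) →
      ∀ h : Ψ (s : E₀) ∈ chartClosure A E₀ y,
        (⟨Ψ (s : E₀), h⟩ : chartClosure A E₀ y) ∈ 𝔪.comap (ktRingHomB Ψ hA hy)) :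
    𝔪.comap (ktRingHomB Ψ hA hy) = 𝔪 := by
  haveI : 𝔪.IsMaximal := h𝔪
  have hmax : (𝔪.comap (ktRingHomB Ψ hA hy)).IsMaximal :=
    Ideal.comap_isMaximal_of_surjective _ hsurj
  have h1 := kt_comap_eq_of_stable Ψ hA hy hsurj _ hmax hst
  exact Ideal.comap_injective_of_surjective _ hsurj h1

end Transport

end Fermat.Agent.H42.SS

end
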