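import Mathlib
import Fermat.Agent.H32.SS.GenCore
import Fermat.Agent.H82.SS.Model
import Fermat.Agent.H11.SS2.Contract

/-!
# P-SS row 972 (KT-C2 NORMRED2, owner helper56), step (1) by helper42: the PRODUCT FORMULA

`K₁` a number field, `q` a prime, `q ∤ M`, `W` an Atkin-Lehner automorphism of the model field of
level `M q` (`W α = β`, `W β = α`), `ρ : K₁ →+* L` a field containing a primitive `q`-th root of
unity `ζ`.  For EVERY `z` of level `M q`:

`(ρ N_α z)(t^q) = (ρ z)(t^q) · ∏_{b < q} (ρ W z)(ζ^b t)`      (`ktnp_norm_prod`)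

where `N_α = ss2NormAlong (heckeAlphaBar K₁ M q)` and `ρ` acts coefficientwise (`coeffMap ρ`).
Also `[E₀ : α E₀'] = q + 1` over `K₁` (`ktnp_finrankAlong`).

Proof: the `q + 1` ring homomorphisms `τ_∞ z = (ρ z)(t^q)`, `τ_b z = (ρ W z)(ζ^b t)` agree on
`α E₀'` with `ι₀ x = (ρ x)(t^q)` and are pairwise distinct (coefficient of `t⁻¹` of
`τ_i (β j)`); `[E₀ : α E₀'] ≤ q + 1` (helper32) and `≥ q + 1` (Dedekind), then
`Fermat.Agent.H42.map_norm_eq_prod_of_card_eq`.
-/

set_option autoImplicit false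
set_option linter.style.haveILetI false
set_option linter.unusedSectionVars false

noncomputable section

namespace Fermat.Agent.H42.SS

open ModularCurve AlgebraicCurve HahnSeries
open Fermat.Agent.H27 Fermat.Agent.H22.KL Fermat.Agent.H82.SS Fermat.Agent.H11.SS2

/-! ## Abstract part -/

section abs

variable {F F' E ι : Type*} [Field F] [Field F'] [Field E] [Algebra F F'] [Fintype ι]

/-- Pairwise distinct embeddings which agree on `F`: their number is at most `[F' : F]`. -/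
theorem ktnp_card_le_finrank [Module.Finite F F'] (ι₀ : F →+* E) (τ : ι → (F' →+* E))
    (hτ : ∀ i, (τ i).comp (algebraMap F F') = ι₀) (hinj : Function.Injective τ) :
    Fintype.card ι ≤ Module.finrank F F' := by
  letI : Algebra F E := ι₀.toAlgebra
  let g : ι → (F' →ₐ[F] E) := fun i =>
    { τ i with
      commutes' := fun x => by
        show τ i (algebraMap F F' x) = ι₀ x
        rw [← hτ i]
        rfl }
  have hg : Function.Injective g := by
    intro i j hij
    apply hinj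
    ext x
    exact congrArg (fun f : F' →ₐ[F] E => f x) hij
  calc Fintype.card ι = Nat.card ι := Nat.card_eq_fintype_card.symm
    _ ≤ Nat.card (F' →ₐ[F] E) := Nat.card_le_card_of_injective g hg
    _ ≤ Module.finrank F F' := card_algHom_le_finrank F F' E

/-- `coeffMap` commutes with `qExpand`. -/
theorem ktnp_coeffMap_qExpand {R S : Type*} [CommRing R] [CommRing S] (f : R →+* S) (n : ℕ)
    [NeZero n] (x : LaurentSeries R) :
    coeffMap f (qExpand R n x) = qExpand S n (coeffMap f x) := by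
  ext k
  by_cases hk : (n : ℤ) ∣ k
  · obtain ⟨m, rfl⟩ := hk
    rw [coeffMap_coeff, qExpand_coeff_mul, qExpand_coeff_mul, coeffMap_coeff]
  · rw [coeffMap_coeff, qExpand_coeff_of_not_dvd n _ hk, qExpand_coeff_of_not_dvd n _ hk,
      map_zero]

end abs

/-! ## The embeddings -/

section model

variable (K₁ : Type) [Field K₁] [Algebra ℚ K₁] (M q : ℕ) [NeZero M] [NeZero q]
variable {L : Type*} [Field L] (ρ : K₁ →+* L)

/-- the embedding `τ_∞ : z ↦ (ρ z)(t^q)` -/
def ktTauInf : ModelField K₁ (M * q) →+* LaurentSeries L :=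
  (qExpand L q).comp ((coeffMap ρ).comp
    (laurentBaseChange K₁ (modularFunctionFieldFull (M * q))).val.toRingHom)

/-- the embeddings `τ_b : z ↦ (ρ W z)(ζ^b t)` -/
def ktTauFin (W : ModelField K₁ (M * q) ≃ₐ[K₁] ModelField K₁ (M * q)) (ζ : Lˣ) (b : ℕ) :
    ModelField K₁ (M * q) →+* LaurentSeries L :=
  ((twist (ζ ^ b)).comp ((coeffMap ρ).comp
    (laurentBaseChange K₁ (modularFunctionFieldFull (M * q))).val.toRingHom)).comp
      (W : ModelField K₁ (M * q) →+* ModelField K₁ (M * q))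

/-- the family of all `q + 1` embeddings -/
def ktTauAll (W : ModelField K₁ (M * q) ≃ₐ[K₁] ModelField K₁ (M * q)) (ζ : Lˣ) :
    Option (Fin q) → (ModelField K₁ (M * q) →+* LaurentSeries L)
  | none => ktTauInf K₁ M q ρ
  | some b => ktTauFin K₁ M q ρ W ζ b.1

/-- the base embedding `x ↦ (ρ x)(t^q)` of level `M` -/
def ktIota : ModelField K₁ M →+* LaurentSeries L :=
  (qExpand L q).comp ((coeffMap ρ).comp
    (laurentBaseChange K₁ (modularFunctionFieldFull M)).val.toRingHom)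

theorem ktTauInf_apply (z : ModelField K₁ (M * q)) :
    ktTauInf K₁ M q ρ z = qExpand L q (coeffMap ρ (z : LaurentSeries K₁)) := rfl

theorem ktTauFin_apply (W : ModelField K₁ (M * q) ≃ₐ[K₁] ModelField K₁ (M * q)) (ζ : Lˣ)
    (b : ℕ) (z : ModelField K₁ (M * q)) :
    ktTauFin K₁ M q ρ W ζ b z
      = twist (ζ ^ b) (coeffMap ρ ((W z : ModelField K₁ (M * q)) : LaurentSeries K₁)) := rfl

theorem ktIota_apply (x : ModelField K₁ M) :
    ktIota K₁ M q ρ x = qExpand L q (coeffMap ρ (x : LaurentSeries K₁)) := rfl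

theorem ktTauAll_comp_alpha (W : ModelField K₁ (M * q) ≃ₐ[K₁] ModelField K₁ (M * q))
    (hWα : ∀ x, W (heckeAlphaBar K₁ M q x) = heckeBetaBar K₁ M q x) (ζ : Lˣ)
    (hζ : ζ ^ q = 1) (i : Option (Fin q)) :
    (ktTauAll K₁ M q ρ W ζ i).comp (heckeAlphaBar K₁ M q).toRingHom = ktIota K₁ M q ρ := by
  refine RingHom.ext fun x => ?_
  cases i with
  | none =>
      show ktTauInf K₁ M q ρ (heckeAlphaBar K₁ M q x) = _
      rw [ktTauInf_apply, coe_heckeAlphaBar, ktIota_apply]
  | some b =>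
      show ktTauFin K₁ M q ρ W ζ b.1 (heckeAlphaBar K₁ M q x) = _
      rw [ktTauFin_apply, hWα, coe_heckeBetaBar, ktIota_apply, ktnp_coeffMap_qExpand]
      apply twist_qExpand_of_pow_eq_one
      rw [← pow_mul, mul_comm, pow_mul, hζ, one_pow]

theorem ktTauAll_beta (W : ModelField K₁ (M * q) ≃ₐ[K₁] ModelField K₁ (M * q))
    (hWβ : ∀ x, W (heckeBetaBar K₁ M q x) = heckeAlphaBar K₁ M q x) (ζ : Lˣ)
    (i : Option (Fin q)) (f : ModelField K₁ M) :
    ktTauAll K₁ M q ρ W ζ i (heckeBetaBar K₁ M q f) =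
      match i with
      | none => qExpand L q (qExpand L q (coeffMap ρ (f : LaurentSeries K₁)))
      | some b => twist (ζ ^ b.1) (coeffMap ρ (f : LaurentSeries K₁)) := by
  cases i with
  | none =>
      show ktTauInf K₁ M q ρ (heckeBetaBar K₁ M q f) = _
      rw [ktTauInf_apply, coe_heckeBetaBar, ktnp_coeffMap_qExpand]
  | some b =>
      show ktTauFin K₁ M q ρ W ζ b.1 (heckeBetaBar K₁ M q f) = _
      rw [ktTauFin_apply, hWβ, coe_heckeAlphaBar]

theorem ktTauAll_injective (W : ModelField K₁ (M * q) ≃ₐ[K₁] ModelField K₁ (M * q))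
    (hWβ : ∀ x, W (heckeBetaBar K₁ M q x) = heckeAlphaBar K₁ M q x) (ζ : Lˣ)
    (hq : 2 ≤ q) (hζ : IsPrimitiveRoot (ζ : L) q) :
    Function.Injective (ktTauAll K₁ M q ρ W ζ) := by
  have hq1 : ¬ ((q : ℤ) ∣ (-1 : ℤ)) := by
    intro h
    have h1 : (q : ℤ) ∣ 1 := dvd_neg.mp h
    have h2 : (q : ℤ) ≤ 1 := Int.le_of_dvd one_pos h1
    omega
  have hjc : (coeffMap ρ ((Fermat.Agent.H42.jFull K₁ M : ModelField K₁ M) :
      LaurentSeries K₁)).coeff (-1 : ℤ) = 1 := by
    rw [coeffMap_coeff, Fermat.Agent.H42.coe_jFull, coeff_jqModC_neg_one, map_one]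
  have hval : ∀ i : Option (Fin q),
      (ktTauAll K₁ M q ρ W ζ i (heckeBetaBar K₁ M q (Fermat.Agent.H42.jFull K₁ M))).coeff (-1) =
        match i with
        | none => 0
        | some b => (((ζ ^ b.1)⁻¹ : Lˣ) : L) := by
    intro i
    rw [ktTauAll_beta K₁ M q ρ W hWβ ζ i]
    cases i with
    | none => exact qExpand_coeff_of_not_dvd q _ hq1
    | some b =>
        show (twist (ζ ^ b.1) _).coeff (-1) = _
        rw [twist_coeff, hjc, mul_one, zpow_neg_one]
  intro i i' hii'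
  have h1 := hval i
  rw [hii', hval i'] at h1
  cases i with
  | none =>
      cases i' with
      | none => rfl
      | some b' => exact absurd h1 (Units.ne_zero _)
  | some b =>
      cases i' with
      | none => exact absurd h1.symm (Units.ne_zero _)
      | some b' =>
          have h2 : (ζ ^ b'.1)⁻¹ = (ζ ^ b.1)⁻¹ := Units.ext h1
          have h3 : ζ ^ b'.1 = ζ ^ b.1 := inv_injective h2
          have h4 : (ζ : L) ^ b'.1 = (ζ : L) ^ b.1 := by
            have := congrArg (fun u : Lˣ => (u : L)) h3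
            simpa using this
          have h5 := hζ.pow_inj b'.2 b.2 h4
          exact congrArg some (Fin.ext h5.symm)

/-! ## The degree and the product formula -/

/-- `[E₀ : α E₀'] = q + 1` over a number field `K₁` (given an Atkin-Lehner automorphism). -/
theorem ktnp_finrankAlong [FiniteDimensional ℚ K₁] (hq : q.Prime) (hqM : ¬ q ∣ M)
    (W : ModelField K₁ (M * q) ≃ₐ[K₁] ModelField K₁ (M * q))
    (hW : IsAtkinLehnerModel K₁ M q W) :
    FiniteAlong K₁ (heckeAlphaBar K₁ M q) ∧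
      finrankAlong K₁ (heckeAlphaBar K₁ M q) = q + 1 := by
  haveI : Algebra.IsAlgebraic ℚ K₁ := Algebra.IsAlgebraic.of_finite ℚ K₁
  let ι : K₁ →+* AlgebraicClosure ℚ :=
    (IsAlgClosed.lift : K₁ →ₐ[ℚ] AlgebraicClosure ℚ).toRingHom
  obtain ⟨hfin, hle⟩ := Fermat.Agent.H32.SSGen.finrankAlong_heckeAlphaBar_le K₁ M q ι hq hqM
  refine ⟨hfin, le_antisymm hle ?_⟩
  haveI : NeZero ((q : ℕ) : AlgebraicClosure ℚ) := ⟨Nat.cast_ne_zero.mpr hq.ne_zero⟩
  obtain ⟨ζ₀, hζ₀⟩ := HasEnoughRootsOfUnity.exists_primitiveRoot (AlgebraicClosure ℚ) q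
  obtain ⟨ζ, hζ⟩ : ∃ ζ : (AlgebraicClosure ℚ)ˣ, IsPrimitiveRoot (ζ : AlgebraicClosure ℚ) q :=
    ⟨(hζ₀.isUnit hq.ne_zero).unit, by simpa using hζ₀⟩
  have hζ1 : ζ ^ q = 1 := Units.ext (by simpa using hζ.pow_eq_one)
  letI := algebraAlong (heckeAlphaBar K₁ M q)
  haveI : Module.Finite (ModelField K₁ M) (ModelField K₁ (M * q)) := hfin
  have key := ktnp_card_le_finrank (F := ModelField K₁ M) (F' := ModelField K₁ (M * q))
    (ktIota K₁ M q ι) (ktTauAll K₁ M q ι W ζ)
    (fun i => ktTauAll_comp_alpha K₁ M q ι W hW.1 ζ hζ1 i)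
    (ktTauAll_injective K₁ M q ι W hW.2 ζ hq.two_le hζ)
  rw [Fintype.card_option, Fintype.card_fin] at key
  exact key

/-- **The product formula** for the norm along `α` at level `M q`:
`(ρ N_α z)(t^q) = (ρ z)(t^q) · ∏_{b < q} (ρ W z)(ζ^b t)`. -/
theorem ktnp_norm_prod [FiniteDimensional ℚ K₁] (hq : q.Prime) (hqM : ¬ q ∣ M)
    (W : ModelField K₁ (M * q) ≃ₐ[K₁] ModelField K₁ (M * q))
    (hW : IsAtkinLehnerModel K₁ M q W) (ζ : Lˣ) (hζ : IsPrimitiveRoot (ζ : L) q)
    (z : ModelField K₁ (M * q)) :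
    qExpand L q (coeffMap ρ
        ((ss2NormAlong (heckeAlphaBar K₁ M q) z : ModelField K₁ M) : LaurentSeries K₁)) =
      qExpand L q (coeffMap ρ (z : LaurentSeries K₁)) *
        ∏ b ∈ Finset.range q,
          twist (ζ ^ b) (coeffMap ρ ((W z : ModelField K₁ (M * q)) : LaurentSeries K₁)) := by
  obtain ⟨-, hdeg⟩ := ktnp_finrankAlong K₁ M q hq hqM W hW
  letI := algebraAlong (heckeAlphaBar K₁ M q)
  have hζ1 : ζ ^ q = 1 := Units.ext (by simpa using hζ.pow_eq_one)
  have hcard : Fintype.card (Option (Fin q))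
      = Module.finrank (ModelField K₁ M) (ModelField K₁ (M * q)) := by
    rw [Fintype.card_option, Fintype.card_fin]
    exact hdeg.symm
  have key := Fermat.Agent.H42.map_norm_eq_prod_of_card_eq
    (F := ModelField K₁ M) (F' := ModelField K₁ (M * q))
    (ktIota K₁ M q ρ) (ktTauAll K₁ M q ρ W ζ)
    (fun i => ktTauAll_comp_alpha K₁ M q ρ W hW.1 ζ hζ1 i)
    (ktTauAll_injective K₁ M q ρ W hW.2 ζ hq.two_le hζ) hcard z
  rw [ktIota_apply] at key
  show qExpand L q (coeffMap ρ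
    ((Algebra.norm (ModelField K₁ M) z : ModelField K₁ M) : LaurentSeries K₁)) = _
  rw [key, Fintype.prod_option]
  congr 1
  rw [← Fin.prod_univ_eq_prod_range (fun b => twist (ζ ^ b)
    (coeffMap ρ ((W z : ModelField K₁ (M * q)) : LaurentSeries K₁))) q]
  rfl

end model

end Fermat.Agent.H42.SS
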