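import Mathlib
import Fermat.Agent.H52.SS.JInterfaces
import Fermat.Agent.H54.EsC.DegFinite

/-!
# P-SS2 row 1057 (SS2-J7, part J7b, helper42): level change `L → L r` of (KC-FF) and (KT-FF)

From the base change of norms `Fermat.Agent.H52.SS.NormBaseChangeStatement` (J7a, hypothesis):

* `levelKC_of_normBaseChange : NormBaseChangeStatement → LevelKCStatement`,
* `levelKT_of_normBaseChange : NormBaseChangeStatement → LevelKTStatement`.

Proof: apply the statement at level `L r` to `lvlMap f`.  The orders are multiplied by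
ramification indices (`Place.ord_restrictAlong`), `lvlMap` commutes with the coefficientwise
Galois action, the norms are `m`-th powers by (J7a); from `w ^ m = lvlMap g` take the norm along
`lvlMap`: `(N w) ^ m = g ^ d`, `d = [F_{L r q} : F_{L q}] > 0`.
-/

set_option autoImplicit false
set_option linter.style.haveILetI false
set_option linter.unusedSectionVars false

noncomputable section

namespace Fermat.Agent.H42.SS

open AlgebraicCurve ModularCurve
open Fermat.Agent.H52.SS Fermat.Agent.H11.SS2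

/-! ## Abstract part -/

section abs

variable {K F F' : Type*} [Field K] [Field F] [Field F'] [Algebra K F] [Algebra K F']

/-- The degree of a finite embedding is positive. -/
theorem lvl_finrankAlong_pos (φ : F →ₐ[K] F') (hfin : FiniteAlong K φ) :
    0 < finrankAlong K φ := by
  letI := algebraAlong φ
  haveI : Module.Finite F F' := hfin
  exact Module.finrank_pos

/-- A finite embedding is integral. -/
theorem lvl_isIntegral_of_finiteAlong (φ : F →ₐ[K] F') (hfin : FiniteAlong K φ) :
    φ.toRingHom.IsIntegral := by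
  letI := algebraAlong φ
  haveI : Module.Finite F F' := hfin
  intro x
  exact Algebra.IsIntegral.isIntegral (R := F) x

/-- If `w ^ m = φ g` then `(N_φ w) ^ m = g ^ [F' : φ F]`. -/
theorem lvl_norm_pow (φ : F →ₐ[K] F') (m : ℕ) (w : F') (g : F) (h : w ^ m = φ g) :
    (ss2NormAlong φ w) ^ m = g ^ finrankAlong K φ := by
  letI := algebraAlong φ
  show (Algebra.norm F w) ^ m = g ^ Module.finrank F F'
  rw [← map_pow, h]
  exact Algebra.norm_algebraMap g

/-- Finiteness is stable under composition with an isomorphism of the target. -/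
theorem lvl_finiteAlong_comp_equiv {F'' : Type*} [Field F''] [Algebra K F'']
    (φ : F →ₐ[K] F') (e : F' ≃ₐ[K] F'') (hfin : FiniteAlong K φ) :
    FiniteAlong K (e.toAlgHom.comp φ) := by
  letI a1 : Algebra F F' := algebraAlong φ
  letI a2 : Algebra F F'' := algebraAlong (e.toAlgHom.comp φ)
  haveI : Module.Finite F F' := hfin
  let el : F' →ₗ[F] F'' :=
    { toFun := fun x => e x
      map_add' := fun x y => map_add e x y
      map_smul' := fun c x => by
        show e (φ c * x) = e (φ c) * e x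
        exact map_mul e _ _ }
  exact Module.Finite.of_surjective el e.surjective

/-- `ktQuot` commutes with a ring homomorphism intertwining the operators. -/
theorem lvl_ktQuot_map (φ : F →ₐ[K] F') (ψ : F → F) (ψ' : F' → F')
    (hψ : ∀ g, ψ' (φ g) = φ (ψ g)) (k : ℕ) (g : F) :
    Fermat.Agent.H55.SS.ktQuot ψ' k (φ g) = φ (Fermat.Agent.H55.SS.ktQuot ψ k g) := by
  unfold Fermat.Agent.H55.SS.ktQuot
  rw [hψ, map_div₀, map_pow]

/-- `ktTheta` commutes with a ring homomorphism intertwining the operators. -/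
theorem lvl_ktTheta_map (φ : F →ₐ[K] F') (ψ : F → F) (ψ' : F' → F')
    (hψ : ∀ g, ψ' (φ g) = φ (ψ g)) (Q : ℕ) (f : F) :
    Fermat.Agent.H55.SS.ktTheta ψ' Q (φ f) = φ (Fermat.Agent.H55.SS.ktTheta ψ Q f) := by
  unfold Fermat.Agent.H55.SS.ktTheta
  rw [lvl_ktQuot_map φ ψ ψ' hψ, lvl_ktQuot_map φ ψ ψ' hψ, lvl_ktQuot_map φ ψ ψ' hψ,
    lvl_ktQuot_map φ ψ ψ' hψ]

end abs

/-! ## The level map -/

section level

variable (L q r : ℕ) [NeZero L] [NeZero q] [NeZero r]

/-- `F_{L r q}` is finite over `F_{L q}`. -/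
theorem lvl_finiteAlong_lvlMap (hr : r.Prime) :
    FiniteAlong (AlgebraicClosure ℚ) (lvlMap L q r) :=
  lvl_finiteAlong_comp_equiv _ _
    (Fermat.Agent.H54.degeneracyFinite (AlgebraicClosure ℚ) (L * q) r hr).1

/-- `lvlMap` commutes with the coefficientwise Galois action. -/
theorem lvl_lvlMap_smul (σ : AlgebraicClosure ℚ ≃ₐ[ℚ] AlgebraicClosure ℚ)
    (f : modularFunctionFieldBar (L * q)) :
    arithmeticGalois (modularFunctionFieldFull (L * r * q)) σ • lvlMap L q r f
      = lvlMap L q r (arithmeticGalois (modularFunctionFieldFull (L * q)) σ • f) := by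
  apply Subtype.ext
  rw [coe_arithmeticGalois_smul, coe_lvlMap, coe_lvlMap, coe_arithmeticGalois_smul]

/-- `lvlMap f ≠ 0`. -/
theorem lvl_lvlMap_ne_zero {f : modularFunctionFieldBar (L * q)} (hf : f ≠ 0) :
    lvlMap L q r f ≠ 0 := by
  intro h
  exact hf ((lvlMap L q r).toRingHom.injective (h.trans (map_zero _).symm))

/-- the orders of `lvlMap f` are divisible by `m` if those of `f` are -/
theorem lvl_ord_lvlMap (hr : r.Prime) (m : ℕ) (f : modularFunctionFieldBar (L * q))
    (hord : ∀ P : Place (AlgebraicClosure ℚ) (modularFunctionFieldBar (L * q)),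
      (m : ℤ) ∣ P.ord f)
    (P : Place (AlgebraicClosure ℚ) (modularFunctionFieldBar (L * r * q))) :
    (m : ℤ) ∣ P.ord (lvlMap L q r f) := by
  rw [Place.ord_restrictAlong (lvlMap L q r)
    (lvl_isIntegral_of_finiteAlong _ (lvl_finiteAlong_lvlMap L q r hr)) P f]
  exact Dvd.dvd.mul_left (hord _) _

end level

/-! ## The two level changes -/

section final

variable (L q r : ℕ) [NeZero L] [NeZero q] [NeZero r]

/-- the inertia hypothesis passes to `lvlMap f` -/
theorem lvl_inertia (A : ValuationSubring (AlgebraicClosure ℚ)) (m : ℕ)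
    (f : modularFunctionFieldBar (L * q))
    (hin : ∀ σ ∈ A.inertiaSubgroupIn ℚ, ∃ w : modularFunctionFieldBar (L * q),
      w ^ m * f = arithmeticGalois (modularFunctionFieldFull (L * q)) σ • f) :
    ∀ σ ∈ A.inertiaSubgroupIn ℚ, ∃ w : modularFunctionFieldBar (L * r * q),
      w ^ m * lvlMap L q r f
        = arithmeticGalois (modularFunctionFieldFull (L * r * q)) σ • lvlMap L q r f := by
  intro σ hσ
  obtain ⟨w, hw⟩ := hin σ hσ
  refine ⟨lvlMap L q r w, ?_⟩
  rw [lvl_lvlMap_smul, ← hw, map_mul, map_pow]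

/-- the norm hypothesis along `α` passes to `lvlMap f` -/
theorem lvl_normAlpha (hNBC : NormBaseChangeStatement) (hq : q.Prime) (hr : r.Prime)
    (hqr : q ≠ r) (m : ℕ) (f : modularFunctionFieldBar (L * q))
    (hN : ∃ h : modularFunctionFieldBar L,
      h ^ m = ss2NormAlong (heckeAlphaBar (AlgebraicClosure ℚ) L q) f) :
    ∃ h : modularFunctionFieldBar (L * r),
      h ^ m = ss2NormAlong (heckeAlphaBar (AlgebraicClosure ℚ) (L * r) q) (lvlMap L q r f) := by
  obtain ⟨h, hh⟩ := hN
  refine ⟨heckeAlphaBar (AlgebraicClosure ℚ) L r h, ?_⟩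
  rw [(hNBC L q r hq hr hqr f).1, ← hh, map_pow]

/-- the norm hypothesis along `β` passes to `lvlMap f` -/
theorem lvl_normBeta (hNBC : NormBaseChangeStatement) (hq : q.Prime) (hr : r.Prime)
    (hqr : q ≠ r) (m : ℕ) (f : modularFunctionFieldBar (L * q))
    (hN : ∃ h : modularFunctionFieldBar L,
      h ^ m = ss2NormAlong (heckeBetaBar (AlgebraicClosure ℚ) L q) f) :
    ∃ h : modularFunctionFieldBar (L * r),
      h ^ m = ss2NormAlong (heckeBetaBar (AlgebraicClosure ℚ) (L * r) q) (lvlMap L q r f) := by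
  obtain ⟨h, hh⟩ := hN
  refine ⟨heckeAlphaBar (AlgebraicClosure ℚ) L r h, ?_⟩
  rw [(hNBC L q r hq hr hqr f).2, ← hh, map_pow]

/-- `Θ` commutes with `lvlMap`. -/
theorem lvl_theta_lvlMap (φ : AlgebraicClosure ℚ ≃ₐ[ℚ] AlgebraicClosure ℚ) (Q : ℕ)
    (f : modularFunctionFieldBar (L * q)) :
    Fermat.Agent.H55.SS.ktTheta (fun g : modularFunctionFieldBar (L * r * q) =>
        arithmeticGalois (modularFunctionFieldFull (L * r * q)) φ •
          arithmeticGalois (modularFunctionFieldFull (L * r * q)) φ • g) Q (lvlMap L q r f)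
      = lvlMap L q r (Fermat.Agent.H55.SS.ktTheta (fun g : modularFunctionFieldBar (L * q) =>
        arithmeticGalois (modularFunctionFieldFull (L * q)) φ •
          arithmeticGalois (modularFunctionFieldFull (L * q)) φ • g) Q f) := by
  refine lvl_ktTheta_map (lvlMap L q r) _ _ (fun g => ?_) Q f
  rw [lvl_lvlMap_smul, lvl_lvlMap_smul]

end final

/-- **(J7b), (KC)**: `NormBaseChangeStatement → LevelKCStatement`. -/
theorem levelKC_of_normBaseChange (hNBC : NormBaseChangeStatement) : LevelKCStatement := by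
  intro L q r _ _ _ hq hr hqr H A hA
  obtain ⟨c, hc, Hc⟩ := H A hA
  have hfin := lvl_finiteAlong_lvlMap L q r hr
  refine ⟨c * finrankAlong (AlgebraicClosure ℚ) (lvlMap L q r),
    Nat.mul_pos hc (lvl_finrankAlong_pos _ hfin), ?_⟩
  intro m hm hqm f hf hord hin hNα hNβ
  obtain ⟨w', hw'⟩ := Hc m hm hqm (lvlMap L q r f) (lvl_lvlMap_ne_zero L q r hf)
    (lvl_ord_lvlMap L q r hr m f hord) (lvl_inertia L q r A m f hin)
    (lvl_normAlpha L q r hNBC hq hr hqr m f hNα) (lvl_normBeta L q r hNBC hq hr hqr m f hNβ)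
  refine ⟨ss2NormAlong (lvlMap L q r) w', ?_⟩
  rw [lvl_norm_pow (lvlMap L q r) m w' (f ^ c) (by rw [hw', map_pow]), pow_mul]

/-- **(J7b), (KT)**: `NormBaseChangeStatement → LevelKTStatement`. -/
theorem levelKT_of_normBaseChange (hNBC : NormBaseChangeStatement) : LevelKTStatement := by
  intro L q r _ _ _ hq hr hqr H A hA φ hφ
  obtain ⟨d, hd, Hd⟩ := H A hA φ hφ
  have hfin := lvl_finiteAlong_lvlMap L q r hr
  refine ⟨d * finrankAlong (AlgebraicClosure ℚ) (lvlMap L q r),
    Nat.mul_pos hd (lvl_finrankAlong_pos _ hfin), ?_⟩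
  intro m hm hqm f hf hord hin hNα hNβ
  obtain ⟨w', hw'⟩ := Hd m hm hqm (lvlMap L q r f) (lvl_lvlMap_ne_zero L q r hf)
    (lvl_ord_lvlMap L q r hr m f hord) (lvl_inertia L q r A m f hin)
    (lvl_normAlpha L q r hNBC hq hr hqr m f hNα) (lvl_normBeta L q r hNBC hq hr hqr m f hNβ)
  refine ⟨ss2NormAlong (lvlMap L q r) w', ?_⟩
  rw [lvl_theta_lvlMap L q r φ (q ^ 2) f, ← map_pow] at hw'
  rw [lvl_norm_pow (lvlMap L q r) m w' _ hw', pow_mul]

end Fermat.Agent.H42.SS
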