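import Mathlib
import Fermat.Agent.H42.SS.LevelChange

/-!
# P-SS2 row 1057 (SS2-J7, part J7b, helper42): PER-INSTANCE level change of (KC-FF) and (KT-FF)

The same proofs as in `Fermat.Agent.H42.SS.LevelChange`, but the base change of norms is a
hypothesis at the single instance `(L, q, r)`; usable with any restricted form of
`Fermat.Agent.H52.SS.NormBaseChangeStatement`.

* `NormBaseChangeAt L q r` : the two norm identities at `(L, q, r)`, for all `f`.
* `newInvariantFF_of_level : r.Prime → NormBaseChangeAt L q r →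
    NewInvariantFFStatement (L * r) q → NewInvariantFFStatement L q`.
* `ktFn_of_level : r.Prime → NormBaseChangeAt L q r → KTFnStatement (L * r) q → KTFnStatement L q`.
-/

set_option autoImplicit false
set_option linter.style.haveILetI false
set_option linter.unusedSectionVars false

noncomputable section

namespace Fermat.Agent.H42.SS

open AlgebraicCurve ModularCurve
open Fermat.Agent.H52.SS Fermat.Agent.H11.SS2

section inst

variable (L q r : ℕ) [NeZero L] [NeZero q] [NeZero r]

/-- The two norm identities of `NormBaseChangeStatement` at the single instance `(L, q, r)`. -/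
def NormBaseChangeAt : Prop :=
  ∀ f : modularFunctionFieldBar (L * q),
    ss2NormAlong (heckeAlphaBar (AlgebraicClosure ℚ) (L * r) q) (lvlMap L q r f)
      = heckeAlphaBar (AlgebraicClosure ℚ) L r
        (ss2NormAlong (heckeAlphaBar (AlgebraicClosure ℚ) L q) f) ∧
    ss2NormAlong (heckeBetaBar (AlgebraicClosure ℚ) (L * r) q) (lvlMap L q r f)
      = heckeAlphaBar (AlgebraicClosure ℚ) L r
        (ss2NormAlong (heckeBetaBar (AlgebraicClosure ℚ) L q) f)

/-- The full statement gives every instance. -/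
theorem normBaseChangeAt_of_statement (h : NormBaseChangeStatement) (hq : q.Prime)
    (hr : r.Prime) (hqr : q ≠ r) : NormBaseChangeAt L q r :=
  fun f => h L q r hq hr hqr f

/-- the norm hypothesis along `α` passes to `lvlMap f` (per instance) -/
theorem lvl_normAlpha_at (hNBC : NormBaseChangeAt L q r) (m : ℕ)
    (f : modularFunctionFieldBar (L * q))
    (hN : ∃ h : modularFunctionFieldBar L,
      h ^ m = ss2NormAlong (heckeAlphaBar (AlgebraicClosure ℚ) L q) f) :
    ∃ h : modularFunctionFieldBar (L * r),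
      h ^ m = ss2NormAlong (heckeAlphaBar (AlgebraicClosure ℚ) (L * r) q) (lvlMap L q r f) := by
  obtain ⟨h, hh⟩ := hN
  refine ⟨heckeAlphaBar (AlgebraicClosure ℚ) L r h, ?_⟩
  rw [(hNBC f).1, ← hh, map_pow]

/-- the norm hypothesis along `β` passes to `lvlMap f` (per instance) -/
theorem lvl_normBeta_at (hNBC : NormBaseChangeAt L q r) (m : ℕ)
    (f : modularFunctionFieldBar (L * q))
    (hN : ∃ h : modularFunctionFieldBar L,
      h ^ m = ss2NormAlong (heckeBetaBar (AlgebraicClosure ℚ) L q) f) :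
    ∃ h : modularFunctionFieldBar (L * r),
      h ^ m = ss2NormAlong (heckeBetaBar (AlgebraicClosure ℚ) (L * r) q) (lvlMap L q r f) := by
  obtain ⟨h, hh⟩ := hN
  refine ⟨heckeAlphaBar (AlgebraicClosure ℚ) L r h, ?_⟩
  rw [(hNBC f).2, ← hh, map_pow]

/-- **(J7b), (KC), per instance**: (KC-FF) at level `(L r) q` implies (KC-FF) at level `L q`. -/
theorem newInvariantFF_of_level (hr : r.Prime) (hNBC : NormBaseChangeAt L q r)
    (H : NewInvariantFFStatement (L * r) q) : NewInvariantFFStatement L q := by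
  intro A hA
  obtain ⟨c, hc, Hc⟩ := H A hA
  have hfin := lvl_finiteAlong_lvlMap L q r hr
  refine ⟨c * finrankAlong (AlgebraicClosure ℚ) (lvlMap L q r),
    Nat.mul_pos hc (lvl_finrankAlong_pos _ hfin), ?_⟩
  intro m hm hqm f hf hord hin hNα hNβ
  obtain ⟨w', hw'⟩ := Hc m hm hqm (lvlMap L q r f) (lvl_lvlMap_ne_zero L q r hf)
    (lvl_ord_lvlMap L q r hr m f hord) (lvl_inertia L q r A m f hin)
    (lvl_normAlpha_at L q r hNBC m f hNα) (lvl_normBeta_at L q r hNBC m f hNβ)
  refine ⟨ss2NormAlong (lvlMap L q r) w', ?_⟩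
  rw [lvl_norm_pow (lvlMap L q r) m w' (f ^ c) (by rw [hw', map_pow]), pow_mul]

/-- **(J7b), (KT), per instance**: (KT-FF) (weak form) at level `(L r) q` implies (KT-FF)
(weak form) at level `L q`. -/
theorem ktFn_of_level (hr : r.Prime) (hNBC : NormBaseChangeAt L q r)
    (H : KTFnStatement (L * r) q) : KTFnStatement L q := by
  intro A hA φ hφ
  obtain ⟨d, hd, Hd⟩ := H A hA φ hφ
  have hfin := lvl_finiteAlong_lvlMap L q r hr
  refine ⟨d * finrankAlong (AlgebraicClosure ℚ) (lvlMap L q r),
    Nat.mul_pos hd (lvl_finrankAlong_pos _ hfin), ?_⟩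
  intro m hm hqm f hf hord hin hNα hNβ
  obtain ⟨w', hw'⟩ := Hd m hm hqm (lvlMap L q r f) (lvl_lvlMap_ne_zero L q r hf)
    (lvl_ord_lvlMap L q r hr m f hord) (lvl_inertia L q r A m f hin)
    (lvl_normAlpha_at L q r hNBC m f hNα) (lvl_normBeta_at L q r hNBC m f hNβ)
  refine ⟨ss2NormAlong (lvlMap L q r) w', ?_⟩
  rw [lvl_theta_lvlMap L q r φ (q ^ 2) f, ← map_pow] at hw'
  rw [lvl_norm_pow (lvlMap L q r) m w' _ hw', pow_mul]

end inst

end Fermat.Agent.H42.SS
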