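/-
P-SS, SSH-4 GAUSS-2 (row 645), helper42: the generic core.

`E` a field with TWO embeddings `ι₁ ι₂ : E → K₁((q))` (in the application `ι₂ = ι₁ ∘ W`, `W` the
Atkin-Lehner involution), `A₀` a discrete valuation ring with fraction field `K₁`.  If a family
`β` of `n = [E : K₁(x)]` elements integral over `A₀[x]` has `A₀`-integral `q`-expansions at both
embeddings, and the PAIRS of reductions are independent over `k₀[X]` (`X` acting through the
two reductions of `x`), then every `z ∈ E` which is `q`-integral at both embeddings lies in the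
Gauss closure `C(x)`.  (Twin of `H48.QExp.qexp_core`, which is the case of one embedding.)
-/
import Mathlib
import Fermat.Agent.H48.KL.QExpCore

set_option autoImplicit false
set_option maxSynthPendingDepth 3
set_option linter.style.haveILetI false
set_option linter.unusedSectionVars false

noncomputable section

namespace Fermat.Agent.H42.SS

open Polynomial ModularCurve
open Fermat.Agent.H22.KL
open Fermat.Agent.H67.KLConn (PiDvd)
open Fermat.Agent.H87.KL
open Fermat.Agent.H48.QExp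

/-- `s ∈ K₁((q))` is `q`-integral: a quotient `a / b` of two series with coefficients in `A₀`,
the denominator having a unit coefficient (i.e. `s` belongs to the Gauss valuation ring). -/
def IsQIntegral (A₀ K₁ : Type) [CommRing A₀] [Field K₁] [Algebra A₀ K₁]
    (s : LaurentSeries K₁) : Prop :=
  ∃ a b : LaurentSeries A₀, (∃ m : ℤ, IsUnit (b.coeff m)) ∧
    coeffMap (algebraMap A₀ K₁) b * s = coeffMap (algebraMap A₀ K₁) a

theorem isQIntegral_zero (A₀ K₁ : Type) [CommRing A₀] [Nontrivial A₀] [Field K₁]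
    [Algebra A₀ K₁] : IsQIntegral A₀ K₁ 0 :=
  ⟨0, 1, ⟨0, by simp [HahnSeries.coeff_one]⟩, by simp⟩

section Core

variable {K₁ : Type} [Field K₁] {A₀ : Type} [CommRing A₀] [IsDomain A₀]
  [IsDiscreteValuationRing A₀] [Algebra A₀ K₁] [IsFractionRing A₀ K₁]
  {E : Type} [Field E] [Algebra K₁ E] [Algebra A₀ E] [IsScalarTower A₀ K₁ E]

/-- Reduction of a relation `h(x) z = ∑ p_i(x) β_i` with `ϖ ∣ h` at one embedding. -/
theorem reduce_relation (ι : E →ₐ[K₁] LaurentSeries K₁) {ϖ : A₀} (hϖ : Irreducible ϖ)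
    (x : E) (xA : LaurentSeries A₀) (hxA : coeffMap (algebraMap A₀ K₁) xA = ι x)
    {n : ℕ} (β : Fin n → E) (βA : Fin n → LaurentSeries A₀)
    (hβA : ∀ i, coeffMap (algebraMap A₀ K₁) (βA i) = ι (β i))
    (z : E) (hz : IsQIntegral A₀ K₁ (ι z)) (h : A₀[X]) (p : Fin n → A₀[X])
    (hsum : aeval x h * z = ∑ i, aeval x (p i) * β i) (hd : C ϖ ∣ h) :
    ∑ i, aeval (coeffMap (IsLocalRing.residue A₀) xA) ((p i).map (IsLocalRing.residue A₀)) *
      coeffMap (IsLocalRing.residue A₀) (βA i) = 0 := by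
  have hφ : Function.Injective (algebraMap A₀ K₁) := IsFractionRing.injective A₀ K₁
  have hcm := coeffMap_inj (algebraMap A₀ K₁) hφ
  obtain ⟨aA, bA, ⟨m₀, hu⟩, hab⟩ := hz
  have hbred : coeffMap (IsLocalRing.residue A₀) bA ≠ 0 := by
    apply coeffMap_ne_zero_of_coeff _ bA m₀
    intro h0
    rw [IsLocalRing.residue_eq_zero_iff] at h0
    exact (IsLocalRing.mem_maximalIdeal _).1 h0 hu
  have heqA : aeval xA h * aA = bA * ∑ i, aeval xA (p i) * βA i := by
    apply hcm
    rw [map_mul, map_mul, map_sum, ← hab, ← map_aeval_eq_coeffMap ι x xA hxA]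
    have h1 : ι (aeval x h) * (coeffMap (algebraMap A₀ K₁) bA * ι z) =
        coeffMap (algebraMap A₀ K₁) bA * ι (aeval x h * z) := by
      rw [map_mul]
      ring
    rw [h1, hsum, map_sum]
    congr 1
    refine Finset.sum_congr rfl fun i _ => ?_
    rw [map_mul, map_mul, hβA, map_aeval_eq_coeffMap ι x xA hxA]
  have hred := congrArg (coeffMap (IsLocalRing.residue A₀)) heqA
  rw [map_mul, map_mul, coeffMap_aeval, (map_residue_eq_zero_iff hϖ h).2 hd, map_zero,
    zero_mul, map_sum] at hred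
  have h2 := (mul_eq_zero.1 hred.symm).resolve_left hbred
  rw [← h2]
  refine Finset.sum_congr rfl fun i _ => ?_
  rw [map_mul, coeffMap_aeval]

variable (ι₁ ι₂ : E →ₐ[K₁] LaurentSeries K₁) {ϖ : A₀} (hϖ : Irreducible ϖ)
  (x : E) (x₁ x₂ : LaurentSeries A₀)
  (hx₁ : coeffMap (algebraMap A₀ K₁) x₁ = ι₁ x) (hx₂ : coeffMap (algebraMap A₀ K₁) x₂ = ι₂ x)
  (hx : Transcendental A₀ x)
  {n : ℕ} (β : Fin n → E) (β₁ β₂ : Fin n → LaurentSeries A₀)
  (hβ₁ : ∀ i, coeffMap (algebraMap A₀ K₁) (β₁ i) = ι₁ (β i))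
  (hβ₂ : ∀ i, coeffMap (algebraMap A₀ K₁) (β₂ i) = ι₂ (β i))
  (hGI : ∀ p : Fin n → (IsLocalRing.ResidueField A₀)[X],
    ∑ i, aeval (coeffMap (IsLocalRing.residue A₀) x₁) (p i) *
      coeffMap (IsLocalRing.residue A₀) (β₁ i) = 0 →
    ∑ i, aeval (coeffMap (IsLocalRing.residue A₀) x₂) (p i) *
      coeffMap (IsLocalRing.residue A₀) (β₂ i) = 0 → ∀ i, p i = 0)

include hϖ hx₁ hx₂ hx hβ₁ hβ₂ hGI

/-- a normalised relation with `ϖ ∣ h` is impossible -/
theorem not_dvd_of_relation (z : E) (hz₁ : IsQIntegral A₀ K₁ (ι₁ z))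
    (hz₂ : IsQIntegral A₀ K₁ (ι₂ z)) (h : A₀[X]) (p : Fin n → A₀[X])
    (hsum : aeval x h * z = ∑ i, aeval x (p i) * β i)
    (hnorm : ¬ (C ϖ ∣ h ∧ ∀ i, C ϖ ∣ p i)) : ¬ C ϖ ∣ h := by
  intro hd
  apply hnorm
  refine ⟨hd, fun i => ?_⟩
  have h1 := reduce_relation ι₁ hϖ x x₁ hx₁ β β₁ hβ₁ z hz₁ h p hsum hd
  have h2 := reduce_relation ι₂ hϖ x x₂ hx₂ β β₂ hβ₂ z hz₂ h p hsum hd
  exact (map_residue_eq_zero_iff hϖ (p i)).1 (hGI _ h1 h2 i)

/-- the family is linearly independent over `K₀(x)` -/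
theorem linearIndependent_of_GI :
    LinearIndependent ↥(chartField A₀ E x) β := by
  classical
  have hφ : Function.Injective (algebraMap A₀ K₁) := IsFractionRing.injective A₀ K₁
  have hAE : Function.Injective (algebraMap A₀ E) := by
    rw [IsScalarTower.algebraMap_eq A₀ K₁ E]
    exact (algebraMap K₁ E).injective.comp hφ
  rw [Fintype.linearIndependent_iff]
  intro g hg
  by_contra hcon
  push Not at hcon
  obtain ⟨i₀, hi₀⟩ := hcon
  have hgi₀ : ((g i₀ : ↥(chartField A₀ E x)) : E) ≠ 0 := fun h0 => hi₀ (Subtype.ext h0)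
  set c : Fin n → E := fun i => ((g i : ↥(chartField A₀ E x)) : E) / (g i₀ : E) with hc
  have hcK : ∀ i, c i ∈ chartField A₀ E x := fun i => div_mem (g i).2 (g i₀).2
  have hci₀ : c i₀ = 1 := div_self hgi₀
  have hrel : ∑ i, c i * β i = 0 := by
    have h1 : ∑ i, c i * β i = (g i₀ : E)⁻¹ * ∑ i, (g i : E) * β i := by
      rw [Finset.mul_sum]
      refine Finset.sum_congr rfl fun i _ => ?_
      simp only [hc]
      ring
    have h2 : ∑ i, (g i : E) * β i = 0 := by
      rw [← hg]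
      refine Finset.sum_congr rfl fun i _ => ?_
      rfl
    rw [h1, h2, mul_zero]
  obtain ⟨h₀, hh₀, hp₀⟩ := exists_common_denominator (A := A₀) Finset.univ x c
    fun i _ => hcK i
  choose p₀ hp₀ using fun i => hp₀ i (Finset.mem_univ i)
  obtain ⟨h, p, hh, hp, hnorm⟩ := exists_normalized hAE hϖ x c h₀ hh₀ p₀ hp₀
  have hpi₀ : p i₀ = h := by
    have := hp i₀
    rw [hci₀, one_mul] at this
    exact ((transcendental_iff_injective.mp hx) this).symm
  have hsum : aeval x (0 : A₀[X]) * (0 : E) = ∑ i, aeval x (p i) * β i := by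
    rw [mul_zero]
    have h1 : ∑ i, aeval x (p i) * β i = aeval x h * ∑ i, c i * β i := by
      rw [Finset.mul_sum]
      refine Finset.sum_congr rfl fun i _ => ?_
      rw [← hp i]
      ring
    rw [h1, hrel, mul_zero]
  have hz0 : ∀ ι : E →ₐ[K₁] LaurentSeries K₁, IsQIntegral A₀ K₁ (ι 0) := fun ι => by
    rw [map_zero]
    exact isQIntegral_zero A₀ K₁
  have h1 := reduce_relation ι₁ hϖ x x₁ hx₁ β β₁ hβ₁ 0 (hz0 ι₁) 0 p hsum (dvd_zero _)
  have h2 := reduce_relation ι₂ hϖ x x₂ hx₂ β β₂ hβ₂ 0 (hz0 ι₂) 0 p hsum (dvd_zero _)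
  have hall : ∀ i, C ϖ ∣ p i := fun i =>
    (map_residue_eq_zero_iff hϖ (p i)).1 (hGI _ h1 h2 i)
  exact hnorm ⟨hpi₀ ▸ hall i₀, hall⟩

/-- **The generic core of SSH-4.** -/
theorem qexp2_core (hβ : ∀ i, β i ∈ chartClosure A₀ E x)
    (hfin : Module.finrank ↥(chartField A₀ E x) E = n) (hn : 0 < n)
    (z : E) (hz₁ : IsQIntegral A₀ K₁ (ι₁ z)) (hz₂ : IsQIntegral A₀ K₁ (ι₂ z)) :
    z ∈ gaussClosure A₀ E ϖ x := by
  classical
  have hφ : Function.Injective (algebraMap A₀ K₁) := IsFractionRing.injective A₀ K₁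
  have hAE : Function.Injective (algebraMap A₀ E) := by
    rw [IsScalarTower.algebraMap_eq A₀ K₁ E]
    exact (algebraMap K₁ E).injective.comp hφ
  have hli := linearIndependent_of_GI ι₁ ι₂ hϖ x x₁ x₂ hx₁ hx₂ hx β β₁ β₂ hβ₁ hβ₂ hGI
  haveI : FiniteDimensional ↥(chartField A₀ E x) E :=
    Module.finite_of_finrank_pos (by rw [hfin]; exact hn)
  have hspan := hli.span_eq_top_of_card_eq_finrank' (by rw [Fintype.card_fin, hfin])
  have hzspan : z ∈ Submodule.span ↥(chartField A₀ E x) (Set.range β) := by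
    rw [hspan]
    trivial
  obtain ⟨g, hg⟩ := (Submodule.mem_span_range_iff_exists_fun _).1 hzspan
  set c : Fin n → E := fun i => ((g i : ↥(chartField A₀ E x)) : E) with hc
  have hy : z = ∑ i, c i * β i := by
    rw [← hg]
    refine Finset.sum_congr rfl fun i _ => ?_
    rfl
  obtain ⟨h₀, hh₀, hp₀⟩ := exists_common_denominator (A := A₀) Finset.univ x c
    fun i _ => (g i).2
  choose p₀ hp₀ using fun i => hp₀ i (Finset.mem_univ i)
  obtain ⟨h, p, hh, hp, hnorm⟩ := exists_normalized hAE hϖ x c h₀ hh₀ p₀ hp₀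
  have hsum : aeval x h * z = ∑ i, aeval x (p i) * β i := by
    rw [hy, Finset.mul_sum]
    refine Finset.sum_congr rfl fun i _ => ?_
    rw [← hp i]
    ring
  have hnd := not_dvd_of_relation ι₁ ι₂ hϖ x x₁ x₂ hx₁ hx₂ hx β β₁ β₂ hβ₁ hβ₂ hGI z hz₁ hz₂
    h p hsum hnorm
  refine ⟨aeval x h, aeval_mem_chartRing x h,
    fun hd => hnd ((piDvd_aeval_iff hx ϖ h).1 hd), ?_⟩
  rw [hsum]
  refine Subalgebra.sum_mem _ fun i _ => ?_
  refine Subalgebra.mul_mem _ ?_ (hβ i)
  exact (mem_chartClosure_iff x _).2 (IntX.map x (p i))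

end Core

end Fermat.Agent.H42.SS
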