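/-
P-SS, SSH-4 GAUSS-2 (row 645), helper42: the two-sided `q`-expansion principle at level `M q`.

`modelQExp2 : ModelQExp2Statement M q` for a prime `q ∤ M`: an element `z` of the model field
`E₀ = K₁(j(t^d) : d ∣ M q)` which is `q`-integral at `∞` (`z ∈ V_∞`) and whose Atkin-Lehner
transform `W z` is `q`-integral at `∞` (`z ∈ V_0 = W⁻¹ V_∞`) lies in the Gauss closure `C(j)`.
(`ModelQExpStatement`, the one-sided form, is FALSE at `q ∣ N`.)
-/
import Mathlib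
import Fermat.Prelude.Def_ModularCurve_HeckeOperator
import Fermat.Agent.H48.KL.QExpModel
import Fermat.Agent.H27.KLGB.Model
import Fermat.Agent.H26.DedekindPsi
import Fermat.Agent.H42.SS.QExp2Core
import Fermat.Agent.H42.SS.QExp2GI

set_option autoImplicit false
set_option maxSynthPendingDepth 3
set_option linter.style.haveILetI false
set_option linter.unusedSectionVars false

noncomputable section

namespace Fermat.Agent.H42.SS

open Polynomial ModularCurve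
open Fermat.Agent.H22.KL
open Fermat.Agent.H27 Fermat.Agent.H27.KLGB
open Fermat.Agent.H48.QExp

/-- **SSH-4, the two-sided `q`-expansion principle** at level `M q`. -/
def ModelQExp2Statement (M q : ℕ) [NeZero M] [NeZero q] : Prop :=
  ∀ (K₁ : Type) [Field K₁] [Algebra ℚ K₁]
    (A₀ : Type) [CommRing A₀] [IsDomain A₀] [IsDiscreteValuationRing A₀]
    [Algebra A₀ K₁] [IsFractionRing A₀ K₁]
    [Algebra A₀ (ModelField K₁ (M * q))] [IsScalarTower A₀ K₁ (ModelField K₁ (M * q))],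
    ¬ IsUnit ((q : ℕ) : A₀) →
    ∀ (ϖ : A₀), Irreducible ϖ →
    ∀ (x : ModelField K₁ (M * q)), (x : LaurentSeries K₁) = coeffEmb K₁ jq →
    ∀ (W : ModelField K₁ (M * q) ≃ₐ[K₁] ModelField K₁ (M * q)),
      (∀ y, W (heckeAlphaBar K₁ M q y) = heckeBetaBar K₁ M q y) →
      (∀ y, W (heckeBetaBar K₁ M q y) = heckeAlphaBar K₁ M q y) →
    ∀ z : ModelField K₁ (M * q),
      IsQIntegral A₀ K₁ (z : LaurentSeries K₁) →
      IsQIntegral A₀ K₁ ((W z : ModelField K₁ (M * q)) : LaurentSeries K₁) →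
      z ∈ gaussClosure A₀ (ModelField K₁ (M * q)) ϖ x

/-! ### Membership in `ℤ[j(t^d) : d ∣ M q]` -/

section Adjoin

variable (M q : ℕ) [NeZero M] [NeZero q]

theorem gensR_subset_mul : gensR ℤ M ⊆ gensR ℤ (M * q) := by
  rintro _ ⟨d, hd, hdM, rfl⟩
  exact ⟨d, hd, hdM.mul_right q, rfl⟩

theorem mem_adjoin_mul {s : LaurentSeries ℤ} (hs : s ∈ Algebra.adjoin ℤ (gensR ℤ M)) :
    s ∈ Algebra.adjoin ℤ (gensR ℤ (M * q)) :=
  Algebra.adjoin_mono (gensR_subset_mul M q) hs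

theorem qExpand_mem_adjoin_mul {s : LaurentSeries ℤ}
    (hs : s ∈ Algebra.adjoin ℤ (gensR ℤ M)) :
    qExpand ℤ q s ∈ Algebra.adjoin ℤ (gensR ℤ (M * q)) := by
  induction hs using Algebra.adjoin_induction with
  | mem y hy =>
    obtain ⟨d, hd, hdM, rfl⟩ := hy
    haveI := hd
    haveI : NeZero (q * d) := ⟨Nat.mul_ne_zero (NeZero.ne q) (NeZero.ne d)⟩
    rw [qExpand_qExpand]
    refine Algebra.subset_adjoin ⟨q * d, inferInstance, ?_, rfl⟩
    rw [mul_comm q d]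
    exact mul_dvd_mul_right hdM q
  | algebraMap n =>
    rw [eq_intCast, map_intCast]
    exact intCast_mem _ n
  | add y z _ _ hy hz => rw [map_add]; exact add_mem hy hz
  | mul y z _ _ hy hz => rw [map_mul]; exact mul_mem hy hz

theorem jqModC_mem_adjoin (N : ℕ) : jqModC ℤ ∈ Algebra.adjoin ℤ (gensR ℤ N) :=
  Algebra.subset_adjoin (jqModC_mem_gensR ℤ N)

theorem uS_mem_adjoin : uS ℤ q ∈ Algebra.adjoin ℤ (gensR ℤ (M * q)) :=
  sub_mem (qExpand_mem_adjoin_mul M q (jqModC_mem_adjoin M))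
    (pow_mem (jqModC_mem_adjoin (M * q)) q)

theorem uS'_mem_adjoin : uS' ℤ q ∈ Algebra.adjoin ℤ (gensR ℤ (M * q)) :=
  sub_mem (jqModC_mem_adjoin (M * q))
    (pow_mem (qExpand_mem_adjoin_mul M q (jqModC_mem_adjoin M)) q)

theorem famOne_mem_adjoin {θ : LaurentSeries ℤ} (hθ : θ ∈ Algebra.adjoin ℤ (gensR ℤ M))
    (n : ℕ) (a : Fin n ⊕ (Fin n × Fin q)) :
    famOne ℤ q θ n a ∈ Algebra.adjoin ℤ (gensR ℤ (M * q)) := by
  rcases a with i | ⟨i, m⟩
  · exact mul_mem (uS'_mem_adjoin M q) (pow_mem (mem_adjoin_mul M q hθ) _)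
  · exact mul_mem (mul_mem (uS_mem_adjoin M q) (pow_mem (qExpand_mem_adjoin_mul M q hθ) _))
      (pow_mem (qExpand_mem_adjoin_mul M q (jqModC_mem_adjoin M)) _)

end Adjoin

/-! ### The Atkin-Lehner swap on integral elements -/

section Swap

variable {K₁ : Type} [Field K₁] [Algebra ℚ K₁] (M q : ℕ) [NeZero M] [NeZero q]
  (W : ModelField K₁ (M * q) ≃ₐ[K₁] ModelField K₁ (M * q))

/-- `y` has `q`-expansion `s` and `W y` has `q`-expansion `s'`. -/
def Pair (y : ModelField K₁ (M * q)) (s s' : LaurentSeries ℤ) : Prop :=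
  (y : LaurentSeries K₁) = coeffMap (Int.castRingHom K₁) s ∧
    ((W y : ModelField K₁ (M * q)) : LaurentSeries K₁) = coeffMap (Int.castRingHom K₁) s'

variable {M q W}

theorem Pair.mul {y₁ y₂ : ModelField K₁ (M * q)} {s₁ s₁' s₂ s₂' : LaurentSeries ℤ}
    (h₁ : Pair M q W y₁ s₁ s₁') (h₂ : Pair M q W y₂ s₂ s₂') :
    Pair M q W (y₁ * y₂) (s₁ * s₂) (s₁' * s₂') := by
  refine ⟨?_, ?_⟩
  · rw [map_mul, ← h₁.1, ← h₂.1]
    rfl
  · rw [map_mul W, map_mul (coeffMap _), ← h₁.2, ← h₂.2]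
    rfl

theorem Pair.sub {y₁ y₂ : ModelField K₁ (M * q)} {s₁ s₁' s₂ s₂' : LaurentSeries ℤ}
    (h₁ : Pair M q W y₁ s₁ s₁') (h₂ : Pair M q W y₂ s₂ s₂') :
    Pair M q W (y₁ - y₂) (s₁ - s₂) (s₁' - s₂') := by
  refine ⟨?_, ?_⟩
  · rw [map_sub, ← h₁.1, ← h₂.1]
    rfl
  · rw [map_sub W, map_sub (coeffMap _), ← h₁.2, ← h₂.2]
    rfl

theorem Pair.pow {y : ModelField K₁ (M * q)} {s s' : LaurentSeries ℤ}
    (h : Pair M q W y s s') (m : ℕ) : Pair M q W (y ^ m) (s ^ m) (s' ^ m) := by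
  refine ⟨?_, ?_⟩
  · rw [map_pow, ← h.1]
    rfl
  · rw [map_pow W, map_pow (coeffMap _), ← h.2]
    rfl

variable (hWα : ∀ y, W (heckeAlphaBar K₁ M q y) = heckeBetaBar K₁ M q y)
  (hWβ : ∀ y, W (heckeBetaBar K₁ M q y) = heckeAlphaBar K₁ M q y)

include hWα in
theorem pair_alpha {s : LaurentSeries ℤ} (hs : s ∈ Algebra.adjoin ℤ (gensR ℤ M)) :
    ∃ y, Pair M q W y s (qExpand ℤ q s) := by
  refine ⟨heckeAlphaBar K₁ M q ⟨coeffMap (Int.castRingHom K₁) s,
    coeffMap_int_mem_laurentBaseChange K₁ M hs⟩, ?_, ?_⟩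
  · rw [coe_heckeAlphaBar]
  · rw [hWα, coe_heckeBetaBar, coeffMap_qExpand]

include hWβ in
theorem pair_beta {s : LaurentSeries ℤ} (hs : s ∈ Algebra.adjoin ℤ (gensR ℤ M)) :
    ∃ y, Pair M q W y (qExpand ℤ q s) s := by
  refine ⟨heckeBetaBar K₁ M q ⟨coeffMap (Int.castRingHom K₁) s,
    coeffMap_int_mem_laurentBaseChange K₁ M hs⟩, ?_, ?_⟩
  · rw [coe_heckeBetaBar, coeffMap_qExpand]
  · rw [hWβ, coe_heckeAlphaBar]

include hWα hWβ in
/-- the elements of the two-sided family -/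
theorem exists_pair_family {θ : LaurentSeries ℤ} (hθ : θ ∈ Algebra.adjoin ℤ (gensR ℤ M))
    (n : ℕ) (a : Fin n ⊕ (Fin n × Fin q)) :
    ∃ y, Pair M q W y (famOne ℤ q θ n a) (famTwo ℤ q θ n a) := by
  obtain ⟨jE, hj⟩ := pair_alpha (K₁ := K₁) hWα (jqModC_mem_adjoin M)
  obtain ⟨jqE, hjq⟩ := pair_beta (K₁ := K₁) hWβ (jqModC_mem_adjoin M)
  obtain ⟨θE, hθE⟩ := pair_alpha (K₁ := K₁) hWα hθ
  obtain ⟨θqE, hθqE⟩ := pair_beta (K₁ := K₁) hWβ hθ
  have hu : Pair M q W (jqE - jE ^ q) (uS ℤ q) (uS' ℤ q) := hjq.sub (hj.pow q)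
  have hu' : Pair M q W (jE - jqE ^ q) (uS' ℤ q) (uS ℤ q) := hj.sub (hjq.pow q)
  rcases a with i | ⟨i, m⟩
  · exact ⟨_, hu'.mul (hθE.pow i)⟩
  · exact ⟨_, (hu.mul (hθqE.pow i)).mul (hjq.pow m)⟩

end Swap

/-! ### The theorem -/

/-- a prime not dividing a nonzero number -/
theorem exists_prime_not_dvd (N : ℕ) (hN : N ≠ 0) : ∃ ℓ : ℕ, ℓ.Prime ∧ ¬ ℓ ∣ N := by
  obtain ⟨ℓ, hle, hℓ⟩ := Nat.exists_infinite_primes (N + 1)
  refine ⟨ℓ, hℓ, fun hd => ?_⟩
  have := Nat.le_of_dvd (Nat.pos_of_ne_zero hN) hd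
  omega

/-- **SSH-4 (row 645): the two-sided `q`-expansion principle** at level `M q`, `q ∤ M`. -/
theorem modelQExp2 (M q : ℕ) [NeZero M] [NeZero q] (hq : q.Prime) (hqM : ¬ q ∣ M) :
    ModelQExp2Statement M q := by
  classical
  intro K₁ _ _ A₀ _ _ _ _ _ _ _ hu ϖ hϖ x hx W hWα hWβ z hz₁ hz₂
  haveI : Fact q.Prime := ⟨hq⟩
  haveI := charP_residueField (A₀ := A₀) hq hu
  have hx' : (x : LaurentSeries K₁) = jqModC K₁ := by
    rw [hx, Fermat.Agent.H48.QExp.coeffEmb_jq]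
  -- the level `M` primitive element
  obtain ⟨θ, P, hθ, hPm, hPnat, hPθ, -, -, hmin, -⟩ := goodPrimitive_j_full M q hqM
  set n := dedekindPsi M with hn
  have hGIθ := Fermat.Agent.H66.KLM.sb_gi q θ n
    (by rw [hmin, hPm.natDegree_map, hPnat]) (IsLocalRing.ResidueField A₀)
  -- the degree of the level `M q` field
  obtain ⟨ℓ', hℓ', hℓ'N⟩ := exists_prime_not_dvd (M * q) (NeZero.ne (M * q))
  haveI : Fact ℓ'.Prime := ⟨hℓ'⟩
  obtain ⟨θ', P', -, hP'm, hP'nat, hP'θ', -, -, -, hall'⟩ := goodPrimitive_j_full (M * q) ℓ' hℓ'N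
  obtain ⟨-, b, -, -, -, -⟩ := model_basis_pow (M * q) hP'm hP'nat hP'θ' hall' K₁ A₀ x hx
  -- the family
  choose y hy using fun a => exists_pair_family (K₁ := K₁) (W := W) hWα hWβ hθ n a
  set e := Fintype.equivFin (Fin n ⊕ (Fin n × Fin q)) with he
  have hcard : Fintype.card (Fin n ⊕ (Fin n × Fin q)) = dedekindPsi (M * q) := by
    rw [Fintype.card_sum, Fintype.card_prod, Fintype.card_fin, Fintype.card_fin,
      Fermat.Agent.H26.dedekindPsi_mul_prime_of_not_dvd M q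
        (Nat.pos_of_ne_zero (NeZero.ne M)) hq hqM]
    ring
  have hfin : Module.finrank ↥(chartField A₀ (ModelField K₁ (M * q)) x) (ModelField K₁ (M * q))
      = Fintype.card (Fin n ⊕ (Fin n × Fin q)) := by
    rw [Module.finrank_eq_card_basis b, Fintype.card_fin, hcard]
  have hpos : 0 < Fintype.card (Fin n ⊕ (Fin n × Fin q)) := by
    rw [hcard, Fermat.Agent.H26.dedekindPsi_mul_prime_of_not_dvd M q
        (Nat.pos_of_ne_zero (NeZero.ne M)) hq hqM]
    have h1 : 0 < dedekindPsi M := by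
      have hdeg : (minpoly ↥(kJ (ZMod q)) (coeffMap (Int.castRingHom (ZMod q)) θ)).natDegree
          = dedekindPsi M := by rw [hmin, hPm.natDegree_map, hPnat]
      rw [← hdeg]
      apply minpoly.natDegree_pos
      exact ⟨P.map (phiK (ZMod q)), hPm.map _, by rw [← hmin]; exact minpoly.aeval _ _⟩
    positivity
  have hcomp : ∀ s : LaurentSeries ℤ, coeffMap (algebraMap A₀ K₁)
      (coeffMap (Int.castRingHom A₀) s) = coeffMap (Int.castRingHom K₁) s := fun s => by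
    rw [coeffMap_coeffMap]
    exact coeffMap_congr (RingHom.ext_int _ _) s
  have hcompk : ∀ s : LaurentSeries ℤ, coeffMap (IsLocalRing.residue A₀)
      (coeffMap (Int.castRingHom A₀) s) =
        coeffMap (Int.castRingHom (IsLocalRing.ResidueField A₀)) s := fun s => by
    rw [coeffMap_coeffMap]
    exact coeffMap_congr (RingHom.ext_int _ _) s
  -- `x` and `W x`
  obtain ⟨jE, hjE⟩ := pair_alpha (K₁ := K₁) (W := W) hWα (jqModC_mem_adjoin M)
  have hxj : x = jE := by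
    apply Subtype.ext
    rw [hx', hjE.1, coeffMap_jqModC]
  have hWx : ((W x : ModelField K₁ (M * q)) : LaurentSeries K₁) =
      qExpand K₁ q (jqModC K₁) := by
    rw [hxj, hjE.2, coeffMap_qExpand, coeffMap_jqModC]
  refine qexp2_core (modelVal K₁ (M * q))
    ((modelVal K₁ (M * q)).comp (W : ModelField K₁ (M * q) →ₐ[K₁] ModelField K₁ (M * q)))
    hϖ x (jqModC A₀) (qExpand A₀ q (jqModC A₀)) ?_ ?_ (transcendental_model x hx')
    (fun i => y (e.symm i))
    (fun i => coeffMap (Int.castRingHom A₀) (famOne ℤ q θ n (e.symm i)))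
    (fun i => coeffMap (Int.castRingHom A₀) (famTwo ℤ q θ n (e.symm i)))
    ?_ ?_ ?_ ?_ hfin hpos z hz₁ hz₂
  · rw [coeffMap_jqModC]
    exact hx'.symm
  · rw [coeffMap_qExpand, coeffMap_jqModC]
    exact hWx.symm
  · intro i
    rw [hcomp]
    exact (hy (e.symm i)).1.symm
  · intro i
    rw [hcomp]
    exact (hy (e.symm i)).2.symm
  · -- Gauss independence
    intro p h1 h2 i
    have key := gi2 q (IsLocalRing.ResidueField A₀)
      (coeffMap (Int.castRingHom (IsLocalRing.ResidueField A₀)) θ) n hGIθ (fun a => p (e a)) ?_ ?_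
    · have := key (e.symm i)
      rwa [Equiv.apply_symm_apply] at this
    · rw [← h1, coeffMap_jqModC]
      rw [← Equiv.sum_comp e.symm]
      refine Finset.sum_congr rfl fun i _ => ?_
      rw [Equiv.apply_symm_apply, hcompk, coeffMap_famOne]
    · rw [← h2, coeffMap_qExpand, coeffMap_jqModC]
      rw [← Equiv.sum_comp e.symm]
      refine Finset.sum_congr rfl fun i _ => ?_
      rw [Equiv.apply_symm_apply, hcompk, coeffMap_famTwo]
  · -- integrality
    intro i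
    obtain ⟨Q, hQm, hQ, -⟩ := exists_minpoly_int (M * q)
      (famOne_mem_adjoin M q hθ n (e.symm i))
    exact mem_chartClosure_model x hx' _ Q hQm hQ _ (hy (e.symm i)).1

end Fermat.Agent.H42.SS
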